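import Fermat.Agent.JAC.Div.FibreAdapter56

set_option autoImplicit false

open TensorProduct

namespace Fermat.Agent.JAC.Div.CartierFinal56

open Fermat.Agent.JAC.Div.CartierLocal56 Fermat.Agent.JAC.Div.CartierInvertible56
  Fermat.Agent.JAC.Div.FibreAdapter56

/-- Transport of the Dedekind property along a ring isomorphism. -/
theorem isDedekindDomain_of_ringEquiv {A A' : Type*} [CommRing A] [CommRing A'] (f : A ≃+* A')
    [IsDedekindDomain A'] : IsDedekindDomain A := by
  have : IsDomain A := MulEquiv.isDomain A' f.toMulEquiv
  have : IsNoetherianRing A := isNoetherianRing_of_ringEquiv A' f.symm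
  have : Ring.DimensionLEOne A := Ring.DimensionLEOne.of_ringEquiv f
  have : IsIntegrallyClosed A := IsIntegrallyClosed.of_equiv f.symm
  exact { toIsDomain := inferInstance, toIsDedekindRing := { } }

section General

universe u v

variable {B : Type u} {R : Type v} [CommRing B] [CommRing R] [Algebra B R]

/-- **A3.2, final form.**  Let `R` be a finite type `B`-algebra, free as a `B`-module, whose fibres
`K ⊗[B] R` over all fields `K` over `B` are Dedekind domains and not fields ("a relative smooth affine
curve").  Then every ideal `I` with `R ⧸ I` finite projective over `B` is an invertible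
`R`-module. -/
theorem invertible_of_dedekind_fibres [Module.Free B R] [Algebra.FiniteType B R] (I : Ideal R)
    [Module.Finite B (R ⧸ I)] [Module.Projective B (R ⧸ I)]
    (hgeom : ∀ (K : Type u) [Field K] [Algebra B K],
      IsDedekindDomain (K ⊗[B] R) ∧ ¬ IsField (K ⊗[B] R)) :
    Module.Invertible R I := by
  let e := Module.Free.chooseBasis B R
  refine invertible_of_finite_projective_quotient e I ?_ ?_
  · intro b 𝔪' h𝔪'
    let _ : Field (Localization.Away b ⧸ 𝔪') := Ideal.Quotient.field 𝔪'
    have := (hgeom (Localization.Away b ⧸ 𝔪')).1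
    infer_instance
  · intro P hP hIP
    have hp : (P.comap (algebraMap B R)).IsPrime := Ideal.comap_isPrime _ _
    obtain ⟨hded, hfield⟩ := hgeom (FractionRing (B ⧸ P.comap (algebraMap B R)))
    exact fibreGen_of_isDedekindDomain e (P.comap (algebraMap B R))
      (FractionRing (B ⧸ P.comap (algebraMap B R))) P rfl I hIP hfield

end General

section Constant

universe u

variable {k : Type u} [Field k] {A0 : Type u} [CommRing A0] [Algebra k A0]
variable {B : Type u} [CommRing B] [Algebra k B]

/-- **A3.2 for the constant family `B ⊗[k] A0`** (CURVE block): if `A0` is a finite type `k`-algebra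
such that `K ⊗[k] A0` is a Dedekind domain and not a field for every field `K` over `k`, then for
every `k`-algebra `B`, every ideal `I` of `B ⊗[k] A0` with finite projective quotient over `B` is an
invertible module. -/
theorem invertible_of_dedekind_fibres_const [Algebra.FiniteType k A0]
    (hgeom : ∀ (K : Type u) [Field K] [Algebra k K],
      IsDedekindDomain (K ⊗[k] A0) ∧ ¬ IsField (K ⊗[k] A0))
    (I : Ideal (B ⊗[k] A0)) [Module.Finite B ((B ⊗[k] A0) ⧸ I)]
    [Module.Projective B ((B ⊗[k] A0) ⧸ I)] :
    Module.Invertible (B ⊗[k] A0) I := by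
  refine invertible_of_dedekind_fibres (B := B) (R := B ⊗[k] A0) I ?_
  intro K _ _
  let _ : Algebra k K := ((algebraMap B K).comp (algebraMap k B)).toAlgebra
  have : IsScalarTower k B K := IsScalarTower.of_algebraMap_eq (fun _ => rfl)
  obtain ⟨hded, hfield⟩ := hgeom K
  let f : K ⊗[B] (B ⊗[k] A0) ≃ₐ[K] K ⊗[k] A0 := Algebra.TensorProduct.cancelBaseChange k B K K A0
  exact ⟨isDedekindDomain_of_ringEquiv f.toRingEquiv,
    fun h => hfield (MulEquiv.isField h f.symm.toRingEquiv.toMulEquiv)⟩

end Constant

end Fermat.Agent.JAC.Div.CartierFinal56
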