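/-
Programme JAC (S25), work package A3 (relative divisors), brick A3.0 (helper56).

A general flatness criterion for a cokernel, proved by a direct diagram chase:
if `F' --u--> F --π--> Q --> 0` is exact, `F` is flat, and `u` stays injective after tensoring with
`B ⧸ I` for every ideal `I`, then `Q` is flat.
-/
import Mathlib

set_option autoImplicit false

open TensorProduct

namespace Fermat.Agent.JAC.Div.FlatCoker56

variable {B : Type*} [CommRing B]
variable {F' F Q : Type*} [AddCommGroup F'] [AddCommGroup F] [AddCommGroup Q]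
variable [Module B F'] [Module B F] [Module B Q]

/-- If `F' → F → Q → 0` is exact, `F` is flat and `(B ⧸ I) ⊗ F' → (B ⧸ I) ⊗ F` is injective for every
ideal `I`, then `Q` is flat. -/
theorem flat_of_exact_of_lTensor_quotient_injective [Module.Flat B F]
    (u : F' →ₗ[B] F) (π : F →ₗ[B] Q) (hex : Function.Exact u π) (hπ : Function.Surjective π)
    (H : ∀ I : Ideal B, Function.Injective (u.lTensor (B ⧸ I))) : Module.Flat B Q := by
  rw [Module.Flat.iff_rTensor_injective']
  intro I
  rw [injective_iff_map_eq_zero]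
  intro z hz
  -- 1. lift `z` to `y : I ⊗ F`
  obtain ⟨y, rfl⟩ := LinearMap.lTensor_surjective I hπ z
  -- 2. the image of `y` in `B ⊗ F` dies in `B ⊗ Q`, hence comes from `w : B ⊗ F'`
  have h2 : (π.lTensor B) ((I.subtype.rTensor F) y) = 0 := by
    have : (π.lTensor B) ((I.subtype.rTensor F) y) = (I.subtype.rTensor Q) ((π.lTensor I) y) := by
      rw [← LinearMap.comp_apply, ← LinearMap.comp_apply, LinearMap.lTensor_comp_rTensor,
        LinearMap.rTensor_comp_lTensor]
    rw [this, hz]
  obtain ⟨w, hw⟩ := (lTensor_exact B hex hπ ((I.subtype.rTensor F) y)).mp h2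
  -- 3. `w` dies in `(B ⧸ I) ⊗ F'`
  have h3 : ((Ideal.Quotient.mkₐ B I).toLinearMap.rTensor F') w = 0 := by
    apply H I
    rw [map_zero]
    have e1 : (u.lTensor (B ⧸ I)) (((Ideal.Quotient.mkₐ B I).toLinearMap.rTensor F') w)
        = ((Ideal.Quotient.mkₐ B I).toLinearMap.rTensor F) ((u.lTensor B) w) := by
      rw [← LinearMap.comp_apply, ← LinearMap.comp_apply, LinearMap.lTensor_comp_rTensor,
        LinearMap.rTensor_comp_lTensor]
    rw [e1, hw, ← LinearMap.comp_apply, ← LinearMap.rTensor_comp]
    have : (Ideal.Quotient.mkₐ B I).toLinearMap ∘ₗ I.subtype = 0 := by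
      ext x
      simp only [LinearMap.coe_comp, Function.comp_apply, Submodule.coe_subtype,
        AlgHom.toLinearMap_apply, Ideal.Quotient.mkₐ_eq_mk, LinearMap.zero_apply]
      exact Ideal.Quotient.eq_zero_iff_mem.mpr x.2
    rw [this, LinearMap.rTensor_zero, LinearMap.zero_apply]
  -- 4. hence `w` comes from `w' : I ⊗ F'`
  have hexI : Function.Exact I.subtype (Ideal.Quotient.mkₐ B I).toLinearMap := by
    intro b
    simp only [AlgHom.toLinearMap_apply, Ideal.Quotient.mkₐ_eq_mk, Set.mem_range,
      Submodule.coe_subtype, Subtype.exists, exists_prop, exists_eq_right]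
    exact Ideal.Quotient.eq_zero_iff_mem
  have hsurjI : Function.Surjective (Ideal.Quotient.mkₐ B I).toLinearMap :=
    Ideal.Quotient.mk_surjective
  obtain ⟨w', hw'⟩ := (rTensor_exact F' hexI hsurjI w).mp h3
  -- 5. `(1 ⊗ u) w' = y` by injectivity of `I ⊗ F → B ⊗ F`
  have h5 : (u.lTensor I) w' = y := by
    apply Module.Flat.rTensor_preserves_injective_linearMap (M := F) I.subtype
      Subtype.val_injective
    have : (I.subtype.rTensor F) ((u.lTensor I) w') = (u.lTensor B) ((I.subtype.rTensor F') w') := by
      rw [← LinearMap.comp_apply, ← LinearMap.comp_apply, LinearMap.lTensor_comp_rTensor,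
        LinearMap.rTensor_comp_lTensor]
    rw [this, hw', hw]
  -- 6. conclude
  rw [← h5, ← LinearMap.comp_apply, ← LinearMap.lTensor_comp, hex.linearMap_comp_eq_zero,
    LinearMap.lTensor_zero, LinearMap.zero_apply]

end Fermat.Agent.JAC.Div.FlatCoker56
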