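/-
Programme JAC (S25), work package A3 (relative divisors), brick A3.1c (helper56).

Fibrewise injectivity implies universal injectivity for maps of free modules, over an arbitrary
commutative ring (no noetherian hypothesis): if `φ : F' → F` is a linear map from a free module to a
projective module such that `φ ⊗ B ⧸ 𝔪` is injective for every maximal ideal `𝔪`, then `φ ⊗ M` is
injective for every module `M`, and the cokernel of `φ` is flat.

Proof: an element of `F' ⊗ M` lives on a finite free coordinate summand `F₀`; for each maximal ideal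
`𝔪` a left inverse of `φ|F₀` modulo `𝔪` lifts to `ρ : F → F₀` with `det (ρ φ) ∉ 𝔪`; by Cramer's rule
`det (ρ φ)` kills any `x` with `(φ ⊗ 1) x = 0`, so the annihilator of `x` is the unit ideal.
-/
import Fermat.Agent.JAC.Div.FlatCoker56

set_option autoImplicit false

open TensorProduct

namespace Fermat.Agent.JAC.Div.FibrewiseInj56

variable {B : Type*} [CommRing B]

section Cramer

variable {F₀ : Type*} [AddCommGroup F₀] [Module B F₀] [Module.Free B F₀] [Module.Finite B F₀]

/-- Cramer's rule for endomorphisms of a finite free module. -/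
theorem exists_comp_eq_det_smul (ψ : F₀ →ₗ[B] F₀) :
    ∃ ψ' : F₀ →ₗ[B] F₀, ψ' ∘ₗ ψ = LinearMap.det ψ • LinearMap.id := by
  classical
  let b := Module.Free.chooseBasis B F₀
  refine ⟨Matrix.toLin b b (LinearMap.toMatrix b b ψ).adjugate, ?_⟩
  have h1 : Matrix.toLin b b (LinearMap.toMatrix b b ψ) = ψ := Matrix.toLin_toMatrix b b ψ
  calc Matrix.toLin b b (LinearMap.toMatrix b b ψ).adjugate ∘ₗ ψ
      = Matrix.toLin b b (LinearMap.toMatrix b b ψ).adjugate ∘ₗ
          Matrix.toLin b b (LinearMap.toMatrix b b ψ) := by rw [h1]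
    _ = Matrix.toLin b b ((LinearMap.toMatrix b b ψ).adjugate * LinearMap.toMatrix b b ψ) :=
        (Matrix.toLin_mul b b b _ _).symm
    _ = LinearMap.det ψ • LinearMap.id := by
        rw [Matrix.adjugate_mul, LinearMap.det_toMatrix, map_smul, Matrix.toLin_one]

/-- If `(ψ ⊗ 1) x = 0` then `det ψ • x = 0`. -/
theorem det_smul_eq_zero_of_rTensor_eq_zero {M : Type*} [AddCommGroup M] [Module B M]
    (ψ : F₀ →ₗ[B] F₀) (x : F₀ ⊗[B] M) (hx : ψ.rTensor M x = 0) : LinearMap.det ψ • x = 0 := by
  obtain ⟨ψ', hψ'⟩ := exists_comp_eq_det_smul ψ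
  have h : (ψ' ∘ₗ ψ).rTensor M x = 0 := by
    rw [LinearMap.rTensor_comp, LinearMap.comp_apply, hx, map_zero]
  rw [hψ', LinearMap.rTensor_smul, LinearMap.rTensor_id] at h
  simpa using h

end Cramer

section Core

variable {F₀ : Type*} [AddCommGroup F₀] [Module B F₀] [Module.Free B F₀] [Module.Finite B F₀]
variable {F : Type*} [AddCommGroup F] [Module B F] [Module.Projective B F]

/-- A map from a finite free module to a projective module which is injective modulo a maximal
ideal `𝔪` admits a "retraction up to a determinant which is a unit at `𝔪`". -/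
theorem exists_det_comp_notMem (φ : F₀ →ₗ[B] F) (𝔪 : Ideal B) [h𝔪 : 𝔪.IsMaximal]
    (h : Function.Injective (φ.lTensor (B ⧸ 𝔪))) :
    ∃ ρ : F →ₗ[B] F₀, LinearMap.det (ρ ∘ₗ φ) ∉ 𝔪 := by
  let _ : Field (B ⧸ 𝔪) := Ideal.Quotient.field 𝔪
  have hinj : LinearMap.ker (φ.baseChange (B ⧸ 𝔪)) = ⊥ := by
    rw [LinearMap.ker_eq_bot, LinearMap.baseChange_eq_ltensor]
    exact h
  obtain ⟨r, hr⟩ := (φ.baseChange (B ⧸ 𝔪)).exists_leftInverse_of_injective hinj
  let g : F →ₗ[B] (B ⧸ 𝔪) ⊗[B] F₀ := (r.restrictScalars B) ∘ₗ (TensorProduct.mk B (B ⧸ 𝔪) F 1)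
  have hq : Function.Surjective (TensorProduct.mk B (B ⧸ 𝔪) F₀ 1) :=
    TensorProduct.mk_surjective B F₀ (B ⧸ 𝔪) Ideal.Quotient.mk_surjective
  obtain ⟨ρ, hρ⟩ := Module.projective_lifting_property (TensorProduct.mk B (B ⧸ 𝔪) F₀ 1) g hq
  refine ⟨ρ, ?_⟩
  have hbc : (ρ ∘ₗ φ).baseChange (B ⧸ 𝔪) = LinearMap.id := by
    apply TensorProduct.AlgebraTensorModule.curry_injective
    ext y
    simp only [AlgebraTensorModule.curry_apply, curry_apply]
    show (LinearMap.baseChange (B ⧸ 𝔪) (ρ ∘ₗ φ)) (1 ⊗ₜ[B] y) = LinearMap.id (1 ⊗ₜ[B] y)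
    rw [LinearMap.baseChange_tmul, LinearMap.id_apply, LinearMap.comp_apply]
    have h1 := LinearMap.congr_fun hρ (φ y)
    have h2 := LinearMap.congr_fun hr ((1 : B ⧸ 𝔪) ⊗ₜ[B] y)
    simp only [LinearMap.coe_comp, Function.comp_apply, mk_apply, LinearMap.baseChange_tmul,
      LinearMap.id_coe, id_eq, g, LinearMap.coe_restrictScalars] at h1 h2
    rw [h1, h2]
  intro hmem
  have hdet := LinearMap.det_baseChange (A := B ⧸ 𝔪) (ρ ∘ₗ φ)
  rw [hbc, LinearMap.det_id, Ideal.Quotient.algebraMap_eq,
    Ideal.Quotient.eq_zero_iff_mem.mpr hmem] at hdet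
  exact one_ne_zero hdet

end Core

section Coordinates

variable {F' : Type*} [AddCommGroup F'] [Module B F']
variable {ι' : Type*} (b' : Module.Basis ι' B F')

/-- Inclusion of the coordinate subspace indexed by a finite set `S` of basis vectors. -/
noncomputable def incl (S : Finset ι') : (S → B) →ₗ[B] F' :=
  Fintype.linearCombination B (fun s : S => b' s)

/-- Coordinate projection to the coordinates in a finite set `S`. -/
noncomputable def proj (S : Finset ι') : F' →ₗ[B] (S → B) :=
  LinearMap.pi (fun s : S => b'.coord s)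

theorem proj_incl (S : Finset ι') : proj b' S ∘ₗ incl b' S = LinearMap.id := by
  classical
  ext t s
  simp [incl, proj, Fintype.linearCombination_apply, Pi.single_apply, Finsupp.single_apply,
    eq_comm]

theorem incl_proj_basis_of_mem (S : Finset ι') (i : ι') (hi : i ∈ S) :
    incl b' S (proj b' S (b' i)) = b' i := by
  classical
  simp only [incl, proj, Fintype.linearCombination_apply, LinearMap.pi_apply, Module.Basis.coord_apply,
    Module.Basis.repr_self, Finsupp.single_apply]
  rw [Finset.sum_eq_single (⟨i, hi⟩ : S)]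
  · simp
  · intro s _ hs
    have : i ≠ (s : ι') := fun h => hs (Subtype.ext h.symm)
    rw [if_neg this, zero_smul]
  · intro h
    exact absurd (Finset.mem_univ _) h

theorem incl_proj_of_support_subset (S : Finset ι') (f : F')
    (h : (b'.repr f).support ⊆ S) : incl b' S (proj b' S f) = f := by
  have hf := b'.linearCombination_repr f
  rw [Finsupp.linearCombination_apply, Finsupp.sum] at hf
  conv_rhs => rw [← hf]
  conv_lhs => rw [← hf]
  rw [map_sum, map_sum]
  apply Finset.sum_congr rfl
  intro i hi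
  rw [map_smul, map_smul, incl_proj_basis_of_mem b' S i (h hi)]

/-- Every element of `F' ⊗ M` is fixed by the coordinate idempotents of all large enough finite
sets of basis vectors. -/
theorem exists_finset_incl_proj_eq {M : Type*} [AddCommGroup M] [Module B M] (x : F' ⊗[B] M) :
    ∃ S : Finset ι', ∀ S', S ⊆ S' → ((incl b' S' ∘ₗ proj b' S').rTensor M) x = x := by
  classical
  induction x using TensorProduct.induction_on with
  | zero => exact ⟨∅, fun S' _ => map_zero _⟩
  | tmul f m =>
    refine ⟨(b'.repr f).support, fun S' hS' => ?_⟩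
    rw [LinearMap.rTensor_tmul, LinearMap.comp_apply, incl_proj_of_support_subset b' S' f hS']
  | add x y hx hy =>
    obtain ⟨S₁, h₁⟩ := hx
    obtain ⟨S₂, h₂⟩ := hy
    refine ⟨S₁ ∪ S₂, fun S' hS' => ?_⟩
    rw [map_add, h₁ S' (Finset.union_subset_left hS'), h₂ S' (Finset.union_subset_right hS')]

end Coordinates

section Main

variable {F' : Type*} [AddCommGroup F'] [Module B F'] [Module.Free B F']
variable {F : Type*} [AddCommGroup F] [Module B F] [Module.Projective B F]

/-- **Fibrewise injective implies universally injective** (right tensor form). -/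
theorem rTensor_injective_of_fibrewise (φ : F' →ₗ[B] F)
    (h : ∀ 𝔪 : Ideal B, 𝔪.IsMaximal → Function.Injective (φ.lTensor (B ⧸ 𝔪)))
    (M : Type*) [AddCommGroup M] [Module B M] : Function.Injective (φ.rTensor M) := by
  classical
  rw [injective_iff_map_eq_zero]
  intro x hx
  let b' := Module.Free.chooseBasis B F'
  obtain ⟨S, hS⟩ := exists_finset_incl_proj_eq b' x
  have hxS := hS S (Finset.Subset.refl S)
  -- the finite free piece
  set x₀ : (S → B) ⊗[B] M := (proj b' S).rTensor M x with hx₀
  have hx₀x : (incl b' S).rTensor M x₀ = x := by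
    rw [hx₀, ← LinearMap.comp_apply, ← LinearMap.rTensor_comp]
    exact hxS
  suffices h0 : x₀ = 0 by rw [← hx₀x, h0, map_zero]
  -- the annihilator of `x₀` is not contained in any maximal ideal
  by_contra hne
  have hproper : LinearMap.ker (LinearMap.toSpanSingleton B _ x₀) ≠ ⊤ := by
    intro htop
    apply hne
    have h1 : (1 : B) ∈ LinearMap.ker (LinearMap.toSpanSingleton B _ x₀) := by
      rw [htop]; exact Submodule.mem_top
    simpa using h1
  obtain ⟨𝔪, h𝔪, hle⟩ := Ideal.exists_le_maximal _ hproper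
  -- `φ ∘ incl` is injective modulo `𝔪`
  have hinj : Function.Injective ((φ ∘ₗ incl b' S).lTensor (B ⧸ 𝔪)) := by
    rw [LinearMap.lTensor_comp]
    refine (h 𝔪 h𝔪).comp ?_
    have hl : (proj b' S).lTensor (B ⧸ 𝔪) ∘ₗ (incl b' S).lTensor (B ⧸ 𝔪) = LinearMap.id := by
      rw [← LinearMap.lTensor_comp, proj_incl, LinearMap.lTensor_id]
    exact Function.LeftInverse.injective (g := (proj b' S).lTensor (B ⧸ 𝔪))
      (fun z => LinearMap.congr_fun hl z)
  obtain ⟨ρ, hρ⟩ := exists_det_comp_notMem (φ ∘ₗ incl b' S) 𝔪 hinj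
  apply hρ
  apply hle
  rw [LinearMap.mem_ker, LinearMap.toSpanSingleton_apply]
  apply det_smul_eq_zero_of_rTensor_eq_zero
  rw [LinearMap.rTensor_comp, LinearMap.comp_apply, LinearMap.rTensor_comp, LinearMap.comp_apply,
    hx₀x, hx, map_zero]

/-- **Fibrewise injective implies universally injective** (left tensor form). -/
theorem lTensor_injective_of_fibrewise (φ : F' →ₗ[B] F)
    (h : ∀ 𝔪 : Ideal B, 𝔪.IsMaximal → Function.Injective (φ.lTensor (B ⧸ 𝔪)))
    (M : Type*) [AddCommGroup M] [Module B M] : Function.Injective (φ.lTensor M) := by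
  have hr := rTensor_injective_of_fibrewise φ h M
  have hcomm : φ.lTensor M =
      (TensorProduct.comm B F M).toLinearMap ∘ₗ φ.rTensor M ∘ₗ
        (TensorProduct.comm B M F').toLinearMap := by
    ext m q
    simp
  rw [hcomm]
  exact (TensorProduct.comm B F M).injective.comp (hr.comp (TensorProduct.comm B M F').injective)

/-- A fibrewise injective map from a free module to a projective module is injective. -/
theorem injective_of_fibrewise (φ : F' →ₗ[B] F)
    (h : ∀ 𝔪 : Ideal B, 𝔪.IsMaximal → Function.Injective (φ.lTensor (B ⧸ 𝔪))) :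
    Function.Injective φ := by
  have hr := rTensor_injective_of_fibrewise φ h B
  intro a a' haa'
  have : φ.rTensor B (a ⊗ₜ 1) = φ.rTensor B (a' ⊗ₜ 1) := by
    rw [LinearMap.rTensor_tmul, LinearMap.rTensor_tmul, haa']
  have h2 := hr this
  have h3 := congrArg (TensorProduct.rid B F') h2
  simpa using h3

/-- The cokernel of a fibrewise injective map from a free module to a projective module is
flat. -/
theorem flat_of_fibrewise_injective {Q : Type*} [AddCommGroup Q] [Module B Q] (φ : F' →ₗ[B] F)
    (π : F →ₗ[B] Q) (hex : Function.Exact φ π) (hπ : Function.Surjective π)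
    (h : ∀ 𝔪 : Ideal B, 𝔪.IsMaximal → Function.Injective (φ.lTensor (B ⧸ 𝔪))) :
    Module.Flat B Q :=
  Fermat.Agent.JAC.Div.FlatCoker56.flat_of_exact_of_lTensor_quotient_injective φ π hex hπ
    (fun I => lTensor_injective_of_fibrewise φ h (B ⧸ I))

end Main

end Fermat.Agent.JAC.Div.FibrewiseInj56
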