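/-
Programme JAC (S25), work package A3 (relative divisors), brick A3.1d (helper56).

Base-change form of "fibrewise injective implies universally injective", and the resulting
criterion for nonzerodivisors in a family: let `R` be a `B`-algebra which is free as a `B`-module,
`f : R`, and `B'` a `B`-algebra.  If `1 ⊗ f` is a nonzerodivisor in `(B' ⧸ 𝔪') ⊗[B] R` for every
maximal ideal `𝔪'` of `B'` (for instance if these fibres have no zero divisors and the coordinates of
`f` generate the unit ideal of `B'`: "unit content"), then `1 ⊗ f` is a nonzerodivisor on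
`N ⊗[B] R` for every `B'`-module `N`, and `(B' ⊗[B] R) ⧸ (1 ⊗ f)` is flat over `B'`.
No noetherian hypotheses.
-/
import Fermat.Agent.JAC.Div.FibrewiseInj56

set_option autoImplicit false

open TensorProduct

namespace Fermat.Agent.JAC.Div.FibrewiseBC56

open Fermat.Agent.JAC.Div.FibrewiseInj56

variable {B : Type*} [CommRing B]

section BaseChange

variable {F' : Type*} [AddCommGroup F'] [Module B F']
variable {F : Type*} [AddCommGroup F] [Module B F]
variable (B' : Type*) [CommRing B'] [Algebra B B']
variable (N : Type*) [AddCommGroup N] [Module B' N] [Module B N] [IsScalarTower B B' N]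

/-- Naturality of `cancelBaseChange` in the last variable. -/
theorem cancelBaseChange_lTensor_baseChange (φ : F' →ₗ[B] F) (z : N ⊗[B'] (B' ⊗[B] F')) :
    AlgebraTensorModule.cancelBaseChange B B' B' N F ((φ.baseChange B').lTensor N z) =
      φ.lTensor N (AlgebraTensorModule.cancelBaseChange B B' B' N F' z) := by
  induction z using TensorProduct.induction_on with
  | zero => simp
  | add x y hx hy => simp only [map_add, hx, hy]
  | tmul n w =>
    induction w using TensorProduct.induction_on with
    | zero => simp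
    | add x y hx hy => simp only [tmul_add, map_add, hx, hy]
    | tmul b x => simp

theorem lTensor_baseChange_injective_iff (φ : F' →ₗ[B] F) :
    Function.Injective ((φ.baseChange B').lTensor N) ↔ Function.Injective (φ.lTensor N) := by
  let e' := AlgebraTensorModule.cancelBaseChange B B' B' N F'
  let e := AlgebraTensorModule.cancelBaseChange B B' B' N F
  have hcomm : ∀ z, e ((φ.baseChange B').lTensor N z) = φ.lTensor N (e' z) :=
    cancelBaseChange_lTensor_baseChange B' N φ
  constructor
  · intro h x y hxy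
    obtain ⟨x', rfl⟩ := e'.surjective x
    obtain ⟨y', rfl⟩ := e'.surjective y
    rw [← hcomm, ← hcomm] at hxy
    rw [h (e.injective hxy)]
  · intro h x y hxy
    apply e'.injective
    apply h
    rw [← hcomm, ← hcomm, hxy]

section Main

variable [Module.Free B F'] [Module.Projective B F]

/-- **Fibrewise injectivity over the closed points of a base change** implies injectivity after
tensoring with any module over the base change. -/
theorem lTensor_injective_of_fibrewise_baseChange (φ : F' →ₗ[B] F)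
    (h : ∀ 𝔪' : Ideal B', 𝔪'.IsMaximal → Function.Injective (φ.lTensor (B' ⧸ 𝔪'))) :
    Function.Injective (φ.lTensor N) := by
  rw [← lTensor_baseChange_injective_iff B' N φ]
  apply lTensor_injective_of_fibrewise (φ.baseChange B')
  intro 𝔪' h𝔪'
  rw [lTensor_baseChange_injective_iff B' (B' ⧸ 𝔪') φ]
  exact h 𝔪' h𝔪'

/-- The cokernel of the base change to `B'` of a map which is fibrewise injective over the closed
points of `B'` is flat over `B'`. -/
theorem flat_baseChange_of_fibrewise_injective {Q' : Type*} [AddCommGroup Q'] [Module B' Q']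
    (φ : F' →ₗ[B] F) (π : B' ⊗[B] F →ₗ[B'] Q')
    (hex : Function.Exact (φ.baseChange B') π) (hπ : Function.Surjective π)
    (h : ∀ 𝔪' : Ideal B', 𝔪'.IsMaximal → Function.Injective (φ.lTensor (B' ⧸ 𝔪'))) :
    Module.Flat B' Q' := by
  apply flat_of_fibrewise_injective (φ.baseChange B') π hex hπ
  intro 𝔪' h𝔪'
  rw [lTensor_baseChange_injective_iff B' (B' ⧸ 𝔪') φ]
  exact h 𝔪' h𝔪'

end Main

end BaseChange

section Algebra

variable (B' : Type*) [CommRing B'] [Algebra B B']
variable (N : Type*) [AddCommGroup N] [Module B' N] [Module B N] [IsScalarTower B B' N]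

variable {R : Type*} [CommRing R] [Algebra B R]

/-- Tensoring "multiplication by `f`" with a `B`-algebra `K` gives multiplication by `1 ⊗ f`. -/
theorem mulLeft_lTensor_apply (K : Type*) [CommRing K] [Algebra B K] (f : R) (x : K ⊗[B] R) :
    (LinearMap.mulLeft B f).lTensor K x = ((1 : K) ⊗ₜ[B] f) * x := by
  induction x using TensorProduct.induction_on with
  | zero => simp
  | add a b ha hb => rw [map_add, ha, hb, mul_add]
  | tmul c r =>
    rw [LinearMap.lTensor_tmul, LinearMap.mulLeft_apply, Algebra.TensorProduct.tmul_mul_tmul,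
      one_mul]

theorem mulLeft_lTensor_injective_iff (K : Type*) [CommRing K] [Algebra B K] (f : R) :
    Function.Injective ((LinearMap.mulLeft B f).lTensor K) ↔
      (1 : K) ⊗ₜ[B] f ∈ nonZeroDivisors (K ⊗[B] R) := by
  rw [mem_nonZeroDivisors_iff_left, injective_iff_map_eq_zero]
  constructor
  · intro h x hx
    apply h
    rw [mulLeft_lTensor_apply, hx]
  · intro h x hx
    apply h
    rw [← mulLeft_lTensor_apply, hx]

theorem mulLeft_baseChange_apply (f : R) (x : B' ⊗[B] R) :
    (LinearMap.mulLeft B f).baseChange B' x = ((1 : B') ⊗ₜ[B] f) * x := by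
  rw [← mulLeft_lTensor_apply]
  rfl

variable [Module.Free B R]

/-- **Fibrewise nonzerodivisors are universal nonzerodivisors** (module form). -/
theorem mulLeft_lTensor_injective_of_fibrewise (f : R)
    (h : ∀ 𝔪' : Ideal B', 𝔪'.IsMaximal →
      (1 : B' ⧸ 𝔪') ⊗ₜ[B] f ∈ nonZeroDivisors ((B' ⧸ 𝔪') ⊗[B] R)) :
    Function.Injective ((LinearMap.mulLeft B f).lTensor N) :=
  lTensor_injective_of_fibrewise_baseChange B' N (LinearMap.mulLeft B f)
    (fun 𝔪' h𝔪' => (mulLeft_lTensor_injective_iff (B' ⧸ 𝔪') f).mpr (h 𝔪' h𝔪'))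

/-- **Fibrewise nonzerodivisors are nonzerodivisors.** -/
theorem one_tmul_mem_nonZeroDivisors_of_fibrewise (f : R)
    (h : ∀ 𝔪' : Ideal B', 𝔪'.IsMaximal →
      (1 : B' ⧸ 𝔪') ⊗ₜ[B] f ∈ nonZeroDivisors ((B' ⧸ 𝔪') ⊗[B] R)) :
    (1 : B') ⊗ₜ[B] f ∈ nonZeroDivisors (B' ⊗[B] R) :=
  (mulLeft_lTensor_injective_iff B' f).mp (mulLeft_lTensor_injective_of_fibrewise B' B' f h)

/-- The quotient by a fibrewise nonzerodivisor is flat over the base. -/
theorem flat_quotient_of_fibrewise (f : R)
    (h : ∀ 𝔪' : Ideal B', 𝔪'.IsMaximal →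
      (1 : B' ⧸ 𝔪') ⊗ₜ[B] f ∈ nonZeroDivisors ((B' ⧸ 𝔪') ⊗[B] R)) :
    Module.Flat B' ((B' ⊗[B] R) ⧸ Ideal.span {(1 : B') ⊗ₜ[B] f}) := by
  refine flat_baseChange_of_fibrewise_injective B' (LinearMap.mulLeft B f)
    (Ideal.Quotient.mkₐ B' (Ideal.span {(1 : B') ⊗ₜ[B] f})).toLinearMap ?_ ?_
    (fun 𝔪' h𝔪' => (mulLeft_lTensor_injective_iff (B' ⧸ 𝔪') f).mpr (h 𝔪' h𝔪'))
  · intro q
    simp only [AlgHom.toLinearMap_apply, Ideal.Quotient.mkₐ_eq_mk, Set.mem_range]
    rw [Ideal.Quotient.eq_zero_iff_mem, Ideal.mem_span_singleton']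
    constructor
    · rintro ⟨a, rfl⟩
      exact ⟨a, by rw [mulLeft_baseChange_apply, mul_comm]⟩
    · rintro ⟨a, rfl⟩
      exact ⟨a, by rw [mulLeft_baseChange_apply, mul_comm]⟩
  · exact Ideal.Quotient.mk_surjective

end Algebra

section Content

variable (B' : Type*) [CommRing B'] [Algebra B B']
variable {R : Type*} [CommRing R] [Algebra B R]
variable {ι : Type*} (e : Module.Basis ι B R)

/-- If some coordinate of `f` stays nonzero in `K`, then `1 ⊗ f ≠ 0` in `K ⊗ R`. -/
theorem one_tmul_ne_zero_of_coeff (K : Type*) [CommRing K] [Algebra B K] (f : R) (j : ι)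
    (hj : algebraMap B K (e.repr f j) ≠ 0) : (1 : K) ⊗ₜ[B] f ≠ 0 := by
  intro h0
  have h1 := congrArg (fun z => (e.baseChange K).repr z j) h0
  simp only [Module.Basis.baseChange_repr_tmul, map_zero, Finsupp.coe_zero, Pi.zero_apply] at h1
  rw [Algebra.smul_def, mul_one] at h1
  exact hj h1

/-- The fibrewise hypothesis of the nonzerodivisor criterion, from: the closed fibres of `B' ⊗ R`
have no zero divisors, and the coordinates of `f` generate the unit ideal of `B'`. -/
theorem fibrewise_of_content (f : R)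
    (hdom : ∀ 𝔪' : Ideal B', 𝔪'.IsMaximal → NoZeroDivisors ((B' ⧸ 𝔪') ⊗[B] R))
    (hcont : Ideal.map (algebraMap B B') (Ideal.span (Set.range (e.repr f))) = ⊤) :
    ∀ 𝔪' : Ideal B', 𝔪'.IsMaximal →
      (1 : B' ⧸ 𝔪') ⊗ₜ[B] f ∈ nonZeroDivisors ((B' ⧸ 𝔪') ⊗[B] R) := by
  intro 𝔪' h𝔪'
  have := hdom 𝔪' h𝔪'
  apply mem_nonZeroDivisors_of_ne_zero
  -- some coordinate of `f` is not in `𝔪'`
  have hex : ∃ j, algebraMap B (B' ⧸ 𝔪') (e.repr f j) ≠ 0 := by
    by_contra hall
    push Not at hall
    have hle : Ideal.map (algebraMap B B') (Ideal.span (Set.range (e.repr f))) ≤ 𝔪' := by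
      rw [Ideal.map_le_iff_le_comap, Ideal.span_le]
      rintro _ ⟨j, rfl⟩
      have := hall j
      rw [IsScalarTower.algebraMap_apply B B' (B' ⧸ 𝔪'), Ideal.Quotient.algebraMap_eq,
        Ideal.Quotient.eq_zero_iff_mem] at this
      exact this
    rw [hcont] at hle
    exact h𝔪'.ne_top (top_le_iff.mp hle)
  obtain ⟨j, hj⟩ := hex
  exact one_tmul_ne_zero_of_coeff e (B' ⧸ 𝔪') f j hj

/-- If one coordinate of `f` becomes a unit in `B'`, the coordinates generate the unit ideal. -/
theorem content_map_eq_top_of_isUnit (f : R) (j : ι)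
    (hj : IsUnit (algebraMap B B' (e.repr f j))) :
    Ideal.map (algebraMap B B') (Ideal.span (Set.range (e.repr f))) = ⊤ := by
  apply Ideal.eq_top_of_isUnit_mem _ _ hj
  apply Ideal.mem_map_of_mem
  exact Ideal.subset_span ⟨j, rfl⟩

/-- Elementary form: if `f * x = 0` in `R` then `x` is killed by a power of any coordinate `b` of
`f`, provided the fibres of `R` over the closed points of `B[1/b]` have no zero divisors. -/
theorem exists_pow_smul_eq_zero_of_mul_eq_zero (f x : R) (j : ι)
    (hdom : ∀ 𝔪' : Ideal (Localization.Away (e.repr f j)), 𝔪'.IsMaximal →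
      NoZeroDivisors ((Localization.Away (e.repr f j) ⧸ 𝔪') ⊗[B] R))
    (hfx : f * x = 0) : ∃ n : ℕ, (e.repr f j) ^ n • x = 0 := by
  have : Module.Free B R := Module.Free.of_basis e
  set b := e.repr f j with hb
  have hunit : IsUnit (algebraMap B (Localization.Away b) b) :=
    IsLocalization.Away.algebraMap_isUnit b
  have hnzd := one_tmul_mem_nonZeroDivisors_of_fibrewise (Localization.Away b) f
    (fibrewise_of_content (Localization.Away b) e f hdom
      (content_map_eq_top_of_isUnit (Localization.Away b) e f j hunit))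
  have h0 : (1 : Localization.Away b) ⊗ₜ[B] x = 0 := by
    apply (mem_nonZeroDivisors_iff_left.mp hnzd)
    rw [Algebra.TensorProduct.tmul_mul_tmul, one_mul, hfx, tmul_zero]
  have h1 : (TensorProduct.mk B (Localization.Away b) R 1) x = 0 := h0
  rw [IsLocalizedModule.eq_zero_iff (Submonoid.powers b)] at h1
  obtain ⟨⟨c, n, rfl⟩, hc⟩ := h1
  exact ⟨n, hc⟩

end Content

end Fermat.Agent.JAC.Div.FibrewiseBC56
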