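/-
Programme JAC (S25), work package A3 (relative divisors), brick A3.2a (helper56).

Relative effective Cartier divisors, local structure.  Let `R` be a `B`-algebra, free as a
`B`-module (basis `e`), and `I` an ideal of `R` such that `R ⧸ I` is projective over `B`.
* `exists_retraction`, `inf_map_le_mul`: `I` is a `B`-direct summand of `R`, so `I ∩ 𝔭R = 𝔭R·I`.
* `fg_of_finite_projective_quotient`: if `R` is of finite type over `B` and `R ⧸ I` is finite
  projective over `B`, then `I` is finitely generated.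
* `exists_notMem_forall_mul_mem`: a Nakayama lemma at a prime (determinant trick).
* `exists_local_generator`, `exists_finset_local_generators`: if the fibres of `R` over `B` have no
  zero divisors and `I` is principal and nonzero in the local rings of the fibres (`FibreGen`), then
  `Spec R` is covered by finitely many basic opens `D(a)` on which `I` is generated by a single
  nonzerodivisor (`IsLocalGenerator`).  No noetherian hypotheses.
-/
import Fermat.Agent.JAC.Div.FibrewiseBC56

set_option autoImplicit false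

open TensorProduct

namespace Fermat.Agent.JAC.Div.CartierLocal56

open Fermat.Agent.JAC.Div.FibrewiseBC56

section Split

variable {B R : Type*} [CommRing B] [CommRing R] [Algebra B R]
variable (I : Ideal R) [Module.Projective B (R ⧸ I)]

/-- If `R ⧸ I` is projective over `B`, there is a `B`-linear retraction of `R` onto `I`. -/
theorem exists_retraction :
    ∃ ρ : R →ₗ[B] R, (∀ r, ρ r ∈ I) ∧ (∀ x ∈ I, ρ x = x) := by
  let π : R →ₗ[B] R ⧸ I := (Ideal.Quotient.mkₐ B I).toLinearMap
  have hπ : Function.Surjective π := Ideal.Quotient.mk_surjective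
  obtain ⟨σ, hσ⟩ := Module.projective_lifting_property π LinearMap.id hπ
  have hσ' : ∀ q, π (σ q) = q := fun q => LinearMap.congr_fun hσ q
  refine ⟨(LinearMap.id : R →ₗ[B] R) - σ ∘ₗ π, fun r => ?_, fun x hx => ?_⟩
  · have h2 : π (((LinearMap.id : R →ₗ[B] R) - σ ∘ₗ π) r) = 0 := by
      simp only [LinearMap.sub_apply, LinearMap.id_coe, id_eq, LinearMap.coe_comp,
        Function.comp_apply, map_sub, hσ', sub_self]
    exact Ideal.Quotient.eq_zero_iff_mem.mp h2
  · have h0 : π x = 0 := Ideal.Quotient.eq_zero_iff_mem.mpr hx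
    simp only [LinearMap.sub_apply, LinearMap.id_coe, id_eq, LinearMap.coe_comp,
      Function.comp_apply, h0, map_zero, sub_zero]

/-- If `R ⧸ I` is projective over `B` then `I ∩ 𝔭R = 𝔭R · I` for every ideal `𝔭` of `B`. -/
theorem inf_map_le_mul (p : Ideal B) :
    I ⊓ Ideal.map (algebraMap B R) p ≤ Ideal.map (algebraMap B R) p * I := by
  obtain ⟨ρ, hρI, hρ⟩ := exists_retraction (B := B) I
  rintro x ⟨hxI, hxp⟩
  have key : ∀ y ∈ (p • ⊤ : Submodule B R), ρ y ∈ Ideal.map (algebraMap B R) p * I := by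
    intro y hy
    refine Submodule.smul_induction_on hy (fun b hb r _ => ?_) (fun y z hy hz => ?_)
    · rw [map_smul, Algebra.smul_def]
      exact Ideal.mul_mem_mul (Ideal.mem_map_of_mem _ hb) (hρI r)
    · rw [map_add]
      exact Ideal.add_mem _ hy hz
  have hx' : x ∈ (p • ⊤ : Submodule B R) := by
    rw [Ideal.smul_top_eq_map]
    exact hxp
  have := key x hx'
  rwa [hρ x hxI] at this

end Split

section Nakayama

variable {R : Type*} [CommRing R]

/-- Determinant trick: if `M *ᵥ g` has entries in an ideal `J`, then `det M * g k ∈ J`. -/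
theorem det_mul_mem_of_mulVec_mem {m : ℕ} (M : Matrix (Fin m) (Fin m) R) (g : Fin m → R)
    (J : Ideal R) (h : ∀ k, (M.mulVec g) k ∈ J) (k : Fin m) : M.det * g k ∈ J := by
  have h1 : M.adjugate.mulVec (M.mulVec g) = M.det • g := by
    rw [Matrix.mulVec_mulVec, Matrix.adjugate_mul, Matrix.smul_mulVec, Matrix.one_mulVec]
  have h2 : (M.adjugate.mulVec (M.mulVec g)) k ∈ J := by
    rw [Matrix.mulVec, dotProduct]
    exact Ideal.sum_mem _ fun l _ => Ideal.mul_mem_left _ _ (h l)
  rw [h1] at h2
  simpa using h2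

/-- The determinant of `u • 1 - A` is congruent to `u ^ m` modulo an ideal containing the entries
of `A`. -/
theorem det_smul_one_sub_sub_pow_mem {m : ℕ} (u : R) (A : Matrix (Fin m) (Fin m) R)
    (𝔞 : Ideal R) (hA : ∀ k l, A k l ∈ 𝔞) : (u • (1 : Matrix (Fin m) (Fin m) R) - A).det - u ^ m ∈ 𝔞 := by
  rw [← Ideal.Quotient.eq_zero_iff_mem, map_sub, RingHom.map_det, map_pow]
  have : (Ideal.Quotient.mk 𝔞).mapMatrix (u • (1 : Matrix (Fin m) (Fin m) R) - A) =
      (Ideal.Quotient.mk 𝔞 u) • (1 : Matrix (Fin m) (Fin m) (R ⧸ 𝔞)) := by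
    ext k l
    simp only [RingHom.mapMatrix_apply, Matrix.map_apply, Matrix.sub_apply, Matrix.smul_apply,
      map_sub, smul_eq_mul, map_mul, Ideal.Quotient.eq_zero_iff_mem.mpr (hA k l), sub_zero]
    by_cases hkl : k = l
    · subst hkl; simp
    · simp [Matrix.one_apply_ne hkl]
  rw [this, Matrix.det_smul, Matrix.det_one, mul_one, Fintype.card_fin, sub_self]

/-- A Nakayama-type lemma at a prime `P`: if `I` is finitely generated, `J ≤ I`, `𝔞 ≤ P`, and every
element of `I` lies in `J + 𝔞 I` after multiplication by some element outside `P`, then a single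
element outside `P` multiplies `I` into `J`. -/
theorem exists_notMem_forall_mul_mem (P : Ideal R) [P.IsPrime] (𝔞 : Ideal R) (h𝔞 : 𝔞 ≤ P)
    (I J : Ideal R) (hI : I.FG)
    (h : ∀ g ∈ I, ∃ u, u ∉ P ∧ u * g ∈ J ⊔ 𝔞 * I) :
    ∃ u, u ∉ P ∧ ∀ g ∈ I, u * g ∈ J := by
  classical
  obtain ⟨m, g, hg⟩ := Submodule.fg_iff_exists_fin_generating_family.mp hI
  have hgI : ∀ k, g k ∈ I := fun k => hg ▸ Submodule.subset_span ⟨k, rfl⟩
  choose u hu using fun k => h (g k) (hgI k)
  -- a common multiplier
  let U : R := ∏ k, u k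
  have hU : U ∉ P := by
    intro hmem
    obtain ⟨k, -, hk⟩ := (Ideal.IsPrime.prod_mem_iff).mp hmem
    exact (hu k).1 hk
  have hUg : ∀ k, U * g k ∈ J ⊔ 𝔞 * I := by
    intro k
    have hdvd : u k ∣ U := Finset.dvd_prod_of_mem u (Finset.mem_univ k)
    obtain ⟨c, hc⟩ := hdvd
    rw [hc, mul_comm (u k) c, mul_assoc]
    exact Ideal.mul_mem_left _ _ (hu k).2
  -- write `U * g k = j k + ∑ l, A k l * g l`
  have hdecomp : ∀ k, ∃ j ∈ J, ∃ a : Fin m → R, (∀ l, a l ∈ 𝔞) ∧ U * g k = j + ∑ l, a l * g l := by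
    intro k
    obtain ⟨j, hj, y, hy, hjy⟩ := Submodule.mem_sup.mp (hUg k)
    have hy' : y ∈ 𝔞 • Submodule.span R (Set.range g) := by
      rw [hg]; exact hy
    obtain ⟨a, ha, hsum⟩ := (Submodule.mem_ideal_smul_span_iff_exists_sum 𝔞 g y).mp hy'
    refine ⟨j, hj, fun l => a l, ha, ?_⟩
    rw [← hjy, ← hsum, Finsupp.sum_fintype _ _ (fun i => by simp)]
    simp [smul_eq_mul]
  choose j hj A hA hUA using hdecomp
  let Amat : Matrix (Fin m) (Fin m) R := Matrix.of A
  let M : Matrix (Fin m) (Fin m) R := U • (1 : Matrix (Fin m) (Fin m) R) - Amat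
  have hMg : ∀ k, (M.mulVec g) k ∈ J := by
    intro k
    have : (M.mulVec g) k = j k := by
      simp only [M, Matrix.sub_mulVec, Matrix.smul_mulVec, Matrix.one_mulVec, Pi.sub_apply,
        Pi.smul_apply, smul_eq_mul, hUA k]
      simp [Matrix.mulVec, dotProduct, Amat]
    rw [this]; exact hj k
  refine ⟨M.det, ?_, ?_⟩
  · intro hdet
    have hcong := det_smul_one_sub_sub_pow_mem U Amat 𝔞 (fun k l => hA k l)
    have : U ^ m ∈ P := by
      have h1 : M.det - U ^ m ∈ P := h𝔞 hcong
      have h2 : U ^ m = M.det - (M.det - U ^ m) := by ring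
      rw [h2]
      exact Ideal.sub_mem _ hdet h1
    exact hU (Ideal.IsPrime.mem_of_pow_mem inferInstance m this)
  · intro x hx
    rw [← hg] at hx
    induction hx using Submodule.span_induction with
    | mem x hx =>
      obtain ⟨k, rfl⟩ := hx
      exact det_mul_mem_of_mulVec_mem M g J hMg k
    | zero => simp
    | add x y _ _ hx hy => rw [mul_add]; exact Ideal.add_mem _ hx hy
    | smul c x _ hx =>
      rw [smul_eq_mul, mul_left_comm]
      exact Ideal.mul_mem_left _ _ hx

end Nakayama

section FG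

variable {B R : Type*} [CommRing B] [CommRing R] [Algebra B R]

/-- An ideal of a finite type algebra whose quotient is finite projective over the base is
finitely generated. -/
theorem fg_of_finite_projective_quotient [Algebra.FiniteType B R] (I : Ideal R)
    [Module.Finite B (R ⧸ I)] [Module.Projective B (R ⧸ I)] : I.FG := by
  have : Module.FinitePresentation B (R ⧸ I) := Module.finitePresentation_of_projective B (R ⧸ I)
  have : Algebra.FinitePresentation B (R ⧸ I) := inferInstance
  obtain ⟨n, g, hg⟩ := Algebra.FiniteType.iff_quotient_mvPolynomial''.mp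
    (inferInstance : Algebra.FiniteType B R)
  let f : MvPolynomial (Fin n) B →ₐ[B] R ⧸ I := (Ideal.Quotient.mkₐ B I).comp g
  have hf : Function.Surjective f := Ideal.Quotient.mk_surjective.comp hg
  have hker := Algebra.FinitePresentation.ker_fg_of_mvPolynomial f hf
  have hI : I = Ideal.map (g : MvPolynomial (Fin n) B →+* R) (RingHom.ker f.toRingHom) := by
    have h1 : RingHom.ker f.toRingHom = Ideal.comap (g : MvPolynomial (Fin n) B →+* R) I := by
      ext x
      simp only [RingHom.mem_ker, Ideal.mem_comap]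
      show (Ideal.Quotient.mk I) (g x) = 0 ↔ _
      rw [Ideal.Quotient.eq_zero_iff_mem]
      rfl
    rw [h1]
    exact (Ideal.map_comap_of_surjective (g : MvPolynomial (Fin n) B →+* R) hg I).symm
  rw [hI]
  exact hker.map _

end FG

section Local

variable {B R : Type*} [CommRing B] [CommRing R] [Algebra B R]
variable {ι : Type*} (e : Module.Basis ι B R)
variable (I : Ideal R)

/-- The fibre condition at a prime `P` of `R` lying over `𝔭 = P ∩ B`: some `f ∈ I` is nonzero in the
fibre over `𝔭` (one of its coordinates is not in `𝔭`) and generates `I` in the local ring of the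
fibre at `P` (every `g ∈ I` lies in `(f) + 𝔭 R` after multiplication by some `u ∉ P`). -/
def FibreGen (P : Ideal R) : Prop :=
  ∃ f ∈ I, (∃ j, e.repr f j ∉ P.comap (algebraMap B R)) ∧
    ∀ g ∈ I, ∃ u, u ∉ P ∧
      u * g ∈ Ideal.span {f} ⊔ Ideal.map (algebraMap B R) (P.comap (algebraMap B R))

/-- The conclusion: on the basic open `D(a)`, the ideal `I` is generated by the nonzerodivisor
`f`. -/
def IsLocalGenerator (a f : R) : Prop :=
  f ∈ I ∧ (∀ g ∈ I, a * g ∈ Ideal.span {f}) ∧ ∀ x, f * x = 0 → ∃ n : ℕ, a ^ n * x = 0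

variable [Module.Projective B (R ⧸ I)]

/-- **Local generators of a relative effective Cartier divisor.** -/
theorem exists_local_generator (hI : I.FG)
    (hdom : ∀ (b : B) (𝔪' : Ideal (Localization.Away b)), 𝔪'.IsMaximal →
      NoZeroDivisors ((Localization.Away b ⧸ 𝔪') ⊗[B] R))
    (P : Ideal R) [P.IsPrime] (hfib : I ≤ P → FibreGen e I P) :
    ∃ a, a ∉ P ∧ ∃ f, IsLocalGenerator I a f := by
  by_cases hIP : I ≤ P
  · obtain ⟨f, hfI, ⟨j, hj⟩, hgen⟩ := hfib hIP
    set p := P.comap (algebraMap B R) with hp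
    have h𝔞 : Ideal.map (algebraMap B R) p ≤ P := Ideal.map_comap_le
    have hfI' : Ideal.span {f} ≤ I := (Ideal.span_singleton_le_iff_mem I).mpr hfI
    obtain ⟨u', hu', hu'I⟩ := exists_notMem_forall_mul_mem P (Ideal.map (algebraMap B R) p) h𝔞 I
      (Ideal.span {f}) hI (by
        intro g hg
        obtain ⟨u, hu, hug⟩ := hgen g hg
        refine ⟨u, hu, ?_⟩
        obtain ⟨y, hy, z, hz, hyz⟩ := Submodule.mem_sup.mp hug
        have hzI : z ∈ I := by
          have : z = u * g - y := by rw [← hyz]; ring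
          rw [this]
          exact Ideal.sub_mem _ (Ideal.mul_mem_left _ _ hg) (hfI' hy)
        rw [← hyz]
        exact Submodule.add_mem_sup hy (inf_map_le_mul (B := B) I p ⟨hzI, hz⟩))
    set b := e.repr f j with hb
    have hβ : algebraMap B R b ∉ P := fun h => hj (Ideal.mem_comap.mpr h)
    refine ⟨u' * algebraMap B R b, ?_, f, hfI, ?_, ?_⟩
    · intro h
      rcases (Ideal.IsPrime.mem_or_mem inferInstance h) with h | h
      · exact hu' h
      · exact hβ h
    · intro g hg
      rw [mul_comm u', mul_assoc]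
      exact Ideal.mul_mem_left _ _ (hu'I g hg)
    · intro x hfx
      obtain ⟨n, hn⟩ := exists_pow_smul_eq_zero_of_mul_eq_zero e f x j (hdom b) hfx
      refine ⟨n, ?_⟩
      rw [mul_pow, mul_assoc, ← map_pow, ← Algebra.smul_def, hn, mul_zero]
  · obtain ⟨a, haI, haP⟩ := SetLike.not_le_iff_exists.mp hIP
    refine ⟨a, haP, a, haI, fun g _ => ?_, fun x hx => ⟨1, by rw [pow_one]; exact hx⟩⟩
    exact Ideal.mem_span_singleton'.mpr ⟨g, mul_comm g a⟩

/-- **Finite Zariski cover by basic opens on which `I` is generated by a nonzerodivisor.** -/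
theorem exists_finset_local_generators (hI : I.FG)
    (hdom : ∀ (b : B) (𝔪' : Ideal (Localization.Away b)), 𝔪'.IsMaximal →
      NoZeroDivisors ((Localization.Away b ⧸ 𝔪') ⊗[B] R))
    (hfib : ∀ P : Ideal R, P.IsPrime → I ≤ P → FibreGen e I P) :
    ∃ s : Finset R, Ideal.span (s : Set R) = ⊤ ∧ ∀ a ∈ s, ∃ f, IsLocalGenerator I a f := by
  have htop : Ideal.span {a : R | ∃ f, IsLocalGenerator I a f} = ⊤ := by
    by_contra hne
    obtain ⟨P, hP, hle⟩ := Ideal.exists_le_maximal _ hne
    have := hP.isPrime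
    obtain ⟨a, haP, f, hf⟩ := exists_local_generator e I hI hdom P (hfib P hP.isPrime)
    exact haP (hle (Ideal.subset_span ⟨f, hf⟩))
  obtain ⟨s, hs, hspan⟩ := (Ideal.span_eq_top_iff_finite _).mp htop
  exact ⟨s, hspan, fun a ha => hs ha⟩

end Local

end Fermat.Agent.JAC.Div.CartierLocal56
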