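/-
Programme JAC (S25), work package A3 (relative divisors), brick A3.2b (helper56).

Invertibility of modules is Zariski-local: if `Spec R` is covered by basic opens `D(r)` (`r ∈ s`,
`span s = ⊤`) and `M[1/r]` is free of rank one (or just invertible, with `M` finitely presented) over
`R[1/r]` for every `r ∈ s`, then `M` is an invertible `R`-module (`Module.Invertible R M`).

Proof: `M` is finitely presented (local property), so duals commute with localisation, and the
contraction `Dual R M ⊗ M → R` is bijective because all its localisations are.
-/
import Mathlib

set_option autoImplicit false

open TensorProduct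

namespace Fermat.Agent.JAC.Div.InvertibleLocal56

section Single

variable {R : Type*} [CommRing R] (S : Submonoid R) (M : Type*) [AddCommGroup M] [Module R M]

/-- The localisation map on duals. -/
noncomputable def dualMap : Module.Dual R M →ₗ[R] Module.Dual (Localization S) (LocalizedModule S M) :=
  IsLocalizedModule.mapExtendScalars S (LocalizedModule.mkLinearMap S M)
    (Algebra.linearMap R (Localization S)) (Localization S)

theorem dualMap_apply (δ : Module.Dual R M) (m : M) :
    dualMap S M δ (LocalizedModule.mkLinearMap S M m) = algebraMap R (Localization S) (δ m) := by
  simp only [dualMap, IsLocalizedModule.mapExtendScalars_apply_apply]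
  exact IsLocalizedModule.map_apply S (LocalizedModule.mkLinearMap S M)
    (Algebra.linearMap R (Localization S)) δ m

/-- The source localisation map. -/
noncomputable def srcMap : Module.Dual R M ⊗[R] M →ₗ[R]
    Module.Dual (Localization S) (LocalizedModule S M) ⊗[R] LocalizedModule S M :=
  TensorProduct.map (dualMap S M) (LocalizedModule.mkLinearMap S M)

/-- The contraction over the localisation, on the tensor product over `R`. -/
noncomputable def locContract :
    Module.Dual (Localization S) (LocalizedModule S M) ⊗[R] LocalizedModule S M →ₗ[R]
      Localization S :=
  TensorProduct.lift
    { toFun := fun δ => (δ.restrictScalars R)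
      map_add' := fun δ δ' => by ext; simp
      map_smul' := fun r δ => by ext; simp }

theorem locContract_tmul (δ : Module.Dual (Localization S) (LocalizedModule S M))
    (m : LocalizedModule S M) : locContract S M (δ ⊗ₜ m) = δ m := by
  simp [locContract]

variable [Module.FinitePresentation R M]

instance : IsLocalizedModule S (dualMap S M) := by
  unfold dualMap
  infer_instance

instance : IsLocalizedModule S (srcMap S M) := by
  unfold srcMap
  infer_instance

theorem map_contractLeft_eq :
    IsLocalizedModule.map S (srcMap S M) (Algebra.linearMap R (Localization S))
      (contractLeft R M) = locContract S M := by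
  apply IsLocalizedModule.linearMap_ext S (srcMap S M) (Algebra.linearMap R (Localization S))
  rw [IsLocalizedModule.map_comp]
  ext δ m
  simp only [AlgebraTensorModule.curry_apply, curry_apply, LinearMap.coe_restrictScalars,
    LinearMap.coe_comp, Function.comp_apply, contractLeft_apply, Algebra.linearMap_apply, srcMap,
    map_tmul, locContract_tmul, dualMap_apply]

omit [Module.FinitePresentation R M] in
theorem locContract_bijective [Module.Invertible (Localization S) (LocalizedModule S M)] :
    Function.Bijective (locContract S M) := by
  have hbij := Module.Invertible.bijective (R := Localization S) (M := LocalizedModule S M)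
  let e := IsLocalization.moduleTensorEquiv S (Localization S)
    (Module.Dual (Localization S) (LocalizedModule S M)) (LocalizedModule S M)
  have hcomp : ∀ z, locContract S M (e z) =
      contractLeft (Localization S) (LocalizedModule S M) z := by
    intro z
    induction z using TensorProduct.induction_on with
    | zero => simp
    | add x y hx hy => simp only [map_add, hx, hy]
    | tmul δ m =>
      have he : e (δ ⊗ₜ[Localization S] m) = δ ⊗ₜ[R] m := rfl
      rw [he, locContract_tmul, contractLeft_apply]
  constructor
  · intro x y hxy
    obtain ⟨x', rfl⟩ := e.surjective x
    obtain ⟨y', rfl⟩ := e.surjective y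
    rw [hcomp, hcomp] at hxy
    rw [hbij.1 hxy]
  · intro z
    obtain ⟨w, hw⟩ := hbij.2 z
    exact ⟨e w, by rw [hcomp, hw]⟩

end Single

section Global

variable {R : Type*} [CommRing R] (M : Type*) [AddCommGroup M] [Module R M]

/-- **Invertibility is local** (finitely presented form): if `M` is finitely presented and `M[1/r]`
is invertible over `R[1/r]` for all `r` in a set generating the unit ideal, `M` is invertible. -/
theorem invertible_of_localization_span [Module.FinitePresentation R M] (s : Set R)
    (hs : Ideal.span s = ⊤)
    (h : ∀ r : s, Module.Invertible (Localization.Away r.1) (LocalizedModule.Away r.1 M)) :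
    Module.Invertible R M := by
  constructor
  refine bijective_of_isLocalized_span s hs
    (fun r => Module.Dual (Localization.Away r.1) (LocalizedModule.Away r.1 M) ⊗[R]
      LocalizedModule.Away r.1 M)
    (fun r => srcMap (Submonoid.powers r.1) M)
    (fun r => Localization.Away r.1)
    (fun r => Algebra.linearMap R (Localization.Away r.1))
    (contractLeft R M) (fun r => ?_)
  have := h r
  rw [map_contractLeft_eq]
  exact locContract_bijective (Submonoid.powers r.1) M

/-- **Invertibility is local** (locally free of rank one form). -/
theorem invertible_of_localizedModule_equiv (s : Set R) (hs : Ideal.span s = ⊤)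
    (h : ∀ r : s, Nonempty
      (LocalizedModule.Away r.1 M ≃ₗ[Localization.Away r.1] Localization.Away r.1)) :
    Module.Invertible R M := by
  have hfp : Module.FinitePresentation R M := by
    refine Module.FinitePresentation.of_localizationSpan s hs (fun g => ?_)
    obtain ⟨e⟩ := h g
    exact Module.FinitePresentation.of_equiv e.symm
  refine invertible_of_localization_span M s hs (fun r => ?_)
  obtain ⟨e⟩ := h r
  exact Module.Invertible.congr e.symm

end Global

end Fermat.Agent.JAC.Div.InvertibleLocal56
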