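/-
Programme JAC (S25), work package A3 (relative divisors), brick A3.2c (helper56).

Relative effective Cartier divisors are invertible: an ideal `I` of `R` which is Zariski-locally
generated by one nonzerodivisor is an invertible `R`-module; hence (with `CartierLocal56`) an ideal
`I` of a finite type, free `B`-algebra `R` with `R ⧸ I` finite projective over `B`, whose fibres are
"curve-like" (`FibreGen`), is invertible.
-/
import Fermat.Agent.JAC.Div.CartierLocal56
import Fermat.Agent.JAC.Div.InvertibleLocal56

set_option autoImplicit false

open TensorProduct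

namespace Fermat.Agent.JAC.Div.CartierInvertible56

open Fermat.Agent.JAC.Div.CartierLocal56 Fermat.Agent.JAC.Div.InvertibleLocal56

section Abs

variable {R : Type*} [CommRing R] (I : Ideal R)

/-- On a basic open `D(a)` where `I` is generated by a nonzerodivisor `f`, the localisation
`I[1/a]` is free of rank one over `R[1/a]`. -/
theorem nonempty_equiv_of_isLocalGenerator {a f : R} (h : IsLocalGenerator I a f) :
    Nonempty (LocalizedModule.Away a I ≃ₗ[Localization.Away a] Localization.Away a) := by
  obtain ⟨hfI, hgen, hnzd⟩ := h
  let φ : I →ₗ[R] LocalizedModule.Away a I := LocalizedModule.mkLinearMap (Submonoid.powers a) I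
  let f' : I := ⟨f, hfI⟩
  let ψ : Localization.Away a →ₗ[Localization.Away a] LocalizedModule.Away a I :=
    LinearMap.toSpanSingleton (Localization.Away a) _ (φ f')
  have hunit : ∀ n : ℕ, IsUnit (algebraMap R (Localization.Away a) (a ^ n)) := fun n => by
    rw [map_pow]; exact (IsLocalization.Away.algebraMap_isUnit a).pow n
  have hsurj : Function.Surjective ψ := by
    intro y
    obtain ⟨⟨g, c⟩, hy⟩ := IsLocalizedModule.surj (Submonoid.powers a) φ y
    obtain ⟨n, hn⟩ := (Submonoid.mem_powers_iff c.1 a).mp c.2
    -- `a ^ n • y = φ g`
    obtain ⟨q, hq⟩ := Ideal.mem_span_singleton'.mp (hgen g g.2)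
    have hq' : a • g = q • f' := by
      apply Subtype.ext
      simp only [SetLike.val_smul, smul_eq_mul, f']
      exact hq.symm
    have h1 : (algebraMap R (Localization.Away a) (a ^ (n + 1))) • y =
        (algebraMap R (Localization.Away a) q) • φ f' := by
      rw [algebraMap_smul, algebraMap_smul, pow_succ', mul_smul]
      have hy' : a ^ n • y = φ g := by
        rw [hn]; exact hy
      rw [hy', ← map_smul, hq', map_smul]
    obtain ⟨u, hu⟩ := hunit (n + 1)
    refine ⟨(↑u⁻¹ : Localization.Away a) * algebraMap R (Localization.Away a) q, ?_⟩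
    simp only [ψ, LinearMap.toSpanSingleton_apply]
    rw [mul_smul, ← h1, ← hu, ← mul_smul, Units.inv_mul, one_smul]
  have hinj : Function.Injective ψ := by
    rw [injective_iff_map_eq_zero]
    intro r hr
    obtain ⟨x, c, rfl⟩ := IsLocalization.exists_mk'_eq (Submonoid.powers a) r
    simp only [ψ, LinearMap.toSpanSingleton_apply] at hr
    -- multiply by the denominator
    have h2 : (algebraMap R (Localization.Away a) x) • φ f' = 0 := by
      rw [← IsLocalization.mk'_spec' (Localization.Away a) x c, mul_smul, hr, smul_zero]
    rw [algebraMap_smul, ← map_smul] at h2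
    obtain ⟨d, hd⟩ := (IsLocalizedModule.eq_zero_iff (Submonoid.powers a) φ).mp h2
    obtain ⟨m, hm⟩ := (Submonoid.mem_powers_iff d.1 a).mp d.2
    have h3 : f * (a ^ m * x) = 0 := by
      have := congrArg Subtype.val hd
      simp only [Submonoid.smul_def, SetLike.val_smul, smul_eq_mul, f',
        ZeroMemClass.coe_zero] at this
      rw [hm, ← this]; ring
    obtain ⟨k, hk⟩ := hnzd _ h3
    rw [IsLocalization.mk'_eq_zero_iff]
    refine ⟨⟨a ^ (k + m), k + m, rfl⟩, ?_⟩
    show a ^ (k + m) * x = 0
    rw [pow_add, mul_assoc]; exact hk
  exact ⟨(LinearEquiv.ofBijective ψ ⟨hinj, hsurj⟩).symm⟩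

/-- **An ideal which is Zariski-locally generated by a nonzerodivisor is an invertible module.** -/
theorem invertible_of_local_generators (s : Finset R) (hs : Ideal.span (s : Set R) = ⊤)
    (h : ∀ a ∈ s, ∃ f, IsLocalGenerator I a f) : Module.Invertible R I := by
  refine invertible_of_localizedModule_equiv I (s : Set R) hs (fun r => ?_)
  obtain ⟨f, hf⟩ := h r.1 r.2
  exact nonempty_equiv_of_isLocalGenerator I hf

end Abs

section Relative

variable {B R : Type*} [CommRing B] [CommRing R] [Algebra B R]
variable {ι : Type*} (e : Module.Basis ι B R)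

/-- **A3.2**: an ideal with finite projective quotient over the base, in a finite type free
`B`-algebra whose fibres have no zero divisors, and which is principal and nonzero in the local
rings of the fibres, is an invertible module. -/
theorem invertible_of_finite_projective_quotient [Algebra.FiniteType B R] (I : Ideal R)
    [Module.Finite B (R ⧸ I)] [Module.Projective B (R ⧸ I)]
    (hdom : ∀ (b : B) (𝔪' : Ideal (Localization.Away b)), 𝔪'.IsMaximal →
      NoZeroDivisors ((Localization.Away b ⧸ 𝔪') ⊗[B] R))
    (hfib : ∀ P : Ideal R, P.IsPrime → I ≤ P → FibreGen e I P) :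
    Module.Invertible R I := by
  obtain ⟨s, hs, h⟩ := exists_finset_local_generators e I
    (fg_of_finite_projective_quotient (B := B) I) hdom hfib
  exact invertible_of_local_generators I s hs h

end Relative

end Fermat.Agent.JAC.Div.CartierInvertible56
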