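/-
Programme JAC (S25), work package A3 (relative divisors), brick A3.2b' (helper56).

`Module.Invertible` is Zariski-local, for ARBITRARY models of the localisations:
* `invertible_of_isLocalized_cover`: `a : ι → R` generating the unit ideal, `Rₚ i` a localisation of
  `R` away from `a i`, `φ i : M →ₗ[R] Mₚ i` a localisation of `M` away from `a i`, and `Mₚ i`
  invertible over `Rₚ i` for all `i`  ⟹  `M` invertible over `R`.
* `invertible_of_two_cover`: the same for a cover by two basic opens `D(a)`, `D(b)`.
(`InvertibleLocal56` is the special case `Rₚ = Localization.Away`, `Mₚ = LocalizedModule.Away`.)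
-/
import Mathlib

set_option autoImplicit false

open TensorProduct

namespace Fermat.Agent.JAC.Div.InvertibleCover56

section Single

variable {R : Type*} [CommRing R] (S : Submonoid R) {M : Type*} [AddCommGroup M] [Module R M]
variable (Rₛ : Type*) [CommRing Rₛ] [Algebra R Rₛ] [IsLocalization S Rₛ]
variable {Mₛ : Type*} [AddCommGroup Mₛ] [Module R Mₛ] [Module Rₛ Mₛ] [IsScalarTower R Rₛ Mₛ]
variable (φ : M →ₗ[R] Mₛ) [IsLocalizedModule S φ]

/-- The localisation map on duals. -/
noncomputable def dualMap : Module.Dual R M →ₗ[R] Module.Dual Rₛ Mₛ :=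
  IsLocalizedModule.mapExtendScalars S φ (Algebra.linearMap R Rₛ) Rₛ

theorem dualMap_apply (δ : Module.Dual R M) (m : M) :
    dualMap S Rₛ φ δ (φ m) = algebraMap R Rₛ (δ m) := by
  simp only [dualMap, IsLocalizedModule.mapExtendScalars_apply_apply]
  exact IsLocalizedModule.map_apply S φ (Algebra.linearMap R Rₛ) δ m

/-- The source localisation map. -/
noncomputable def srcMap : Module.Dual R M ⊗[R] M →ₗ[R] Module.Dual Rₛ Mₛ ⊗[R] Mₛ :=
  TensorProduct.map (dualMap S Rₛ φ) φ

/-- The contraction over the localisation, on the tensor product over `R`. -/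
noncomputable def locContract (Mₛ : Type*) [AddCommGroup Mₛ] [Module R Mₛ] [Module Rₛ Mₛ]
    [IsScalarTower R Rₛ Mₛ] : Module.Dual Rₛ Mₛ ⊗[R] Mₛ →ₗ[R] Rₛ :=
  TensorProduct.lift
    { toFun := fun δ => (δ.restrictScalars R)
      map_add' := fun δ δ' => by ext; simp
      map_smul' := fun r δ => by ext; simp }

theorem locContract_tmul (δ : Module.Dual Rₛ Mₛ) (m : Mₛ) :
    locContract (R := R) Rₛ Mₛ (δ ⊗ₜ[R] m) = δ m := by
  simp [locContract]

include S in
theorem locContract_bijective [Module.Invertible Rₛ Mₛ] :
    Function.Bijective (locContract (R := R) Rₛ Mₛ) := by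
  have hbij := Module.Invertible.bijective (R := Rₛ) (M := Mₛ)
  let e := IsLocalization.moduleTensorEquiv S Rₛ (Module.Dual Rₛ Mₛ) Mₛ
  have hcomp : ∀ z, locContract (R := R) Rₛ Mₛ (e z) = contractLeft Rₛ Mₛ z := by
    intro z
    induction z using TensorProduct.induction_on with
    | zero => simp
    | add x y hx hy => simp only [map_add, hx, hy]
    | tmul δ m =>
      have he : e (δ ⊗ₜ[Rₛ] m) = δ ⊗ₜ[R] m := rfl
      rw [he, locContract_tmul, contractLeft_apply]
  constructor
  · intro x y hxy
    obtain ⟨x', rfl⟩ := e.surjective x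
    obtain ⟨y', rfl⟩ := e.surjective y
    rw [hcomp, hcomp] at hxy
    rw [hbij.1 hxy]
  · intro z
    obtain ⟨w, hw⟩ := hbij.2 z
    exact ⟨e w, by rw [hcomp, hw]⟩

variable [Module.FinitePresentation R M]

instance : IsLocalizedModule S (dualMap S Rₛ φ) := by
  unfold dualMap
  infer_instance

instance : IsLocalizedModule S (srcMap S Rₛ φ) := by
  unfold srcMap
  infer_instance

theorem map_contractLeft_eq :
    IsLocalizedModule.map S (srcMap S Rₛ φ) (Algebra.linearMap R Rₛ)
      (contractLeft R M) = locContract Rₛ Mₛ := by
  apply IsLocalizedModule.linearMap_ext S (srcMap S Rₛ φ) (Algebra.linearMap R Rₛ)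
  rw [IsLocalizedModule.map_comp]
  ext δ m
  simp only [AlgebraTensorModule.curry_apply, curry_apply, LinearMap.coe_restrictScalars,
    LinearMap.coe_comp, Function.comp_apply, contractLeft_apply, Algebra.linearMap_apply, srcMap,
    map_tmul, locContract_tmul, dualMap_apply]

end Single

section Family

variable {R : Type*} [CommRing R] (M : Type*) [AddCommGroup M] [Module R M]
variable {ι : Type*} (a : ι → R)
variable (Rₚ : ι → Type*) [∀ i, CommRing (Rₚ i)] [∀ i, Algebra R (Rₚ i)]
  [∀ i, IsLocalization.Away (a i) (Rₚ i)]
variable (Mₚ : ι → Type*) [∀ i, AddCommGroup (Mₚ i)] [∀ i, Module R (Mₚ i)]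
  [∀ i, Module (Rₚ i) (Mₚ i)] [∀ i, IsScalarTower R (Rₚ i) (Mₚ i)]
variable (φ : ∀ i, M →ₗ[R] Mₚ i) [∀ i, IsLocalizedModule.Away (a i) (φ i)]

include φ in
/-- **Invertibility is Zariski-local**, for arbitrary models of the localisations, indexed by an
arbitrary type. -/
theorem invertible_of_isLocalized_cover (ha : Ideal.span (Set.range a) = ⊤)
    (h : ∀ i, Module.Invertible (Rₚ i) (Mₚ i)) : Module.Invertible R M := by
  classical
  -- choose an index for every element of the range
  let idx : Set.range a → ι := fun r => Classical.choose r.2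
  have hidx : ∀ r : Set.range a, a (idx r) = r.1 := fun r => Classical.choose_spec r.2
  have instLoc : ∀ r : Set.range a, IsLocalization.Away r.1 (Rₚ (idx r)) := fun r => by
    rw [← hidx r]; infer_instance
  have instLocMod : ∀ r : Set.range a, IsLocalizedModule.Away r.1 (φ (idx r)) := fun r => by
    rw [← hidx r]; infer_instance
  have hfp : Module.FinitePresentation R M := by
    refine Module.FinitePresentation.of_localizationSpan' (Set.range a) ha
      (Mₚ := fun r => Mₚ (idx r)) (Rₚ := fun r => Rₚ (idx r)) (fun r => φ (idx r)) (fun r => ?_)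
    have := h (idx r)
    exact Module.finitePresentation_of_projective _ _
  constructor
  refine bijective_of_isLocalized_span (Set.range a) ha
    (fun r => Module.Dual (Rₚ (idx r)) (Mₚ (idx r)) ⊗[R] Mₚ (idx r))
    (fun r => srcMap (Submonoid.powers r.1) (Rₚ (idx r)) (φ (idx r)))
    (fun r => Rₚ (idx r))
    (fun r => Algebra.linearMap R (Rₚ (idx r)))
    (contractLeft R M) (fun r => ?_)
  have := h (idx r)
  rw [map_contractLeft_eq]
  exact locContract_bijective (Submonoid.powers r.1) (Rₚ (idx r))

end Family

section Two

universe u v w x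

variable {R : Type u} [CommRing R] (M : Type v) [AddCommGroup M] [Module R M]
variable (a b : R)
variable (Ra : Type w) [CommRing Ra] [Algebra R Ra] [IsLocalization.Away a Ra]
variable (Ma : Type x) [AddCommGroup Ma] [Module R Ma] [Module Ra Ma] [IsScalarTower R Ra Ma]
variable (φa : M →ₗ[R] Ma) [IsLocalizedModule.Away a φa]
variable (Rb : Type w) [CommRing Rb] [Algebra R Rb] [IsLocalization.Away b Rb]
variable (Mb : Type x) [AddCommGroup Mb] [Module R Mb] [Module Rb Mb] [IsScalarTower R Rb Mb]
variable (φb : M →ₗ[R] Mb) [IsLocalizedModule.Away b φb]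

include φa φb in
/-- Two-element cover version. -/
theorem invertible_of_two_cover (hab : Ideal.span {a, b} = ⊤)
    [ha : Module.Invertible Ra Ma] [hb : Module.Invertible Rb Mb] : Module.Invertible R M := by
  let el : Bool → R := fun i => cond i a b
  let Rₚ : Bool → Type w := fun i => cond i Ra Rb
  let Mₚ : Bool → Type x := fun i => cond i Ma Mb
  let i1 : ∀ i, CommRing (Rₚ i) := fun i =>
    match i with | true => (inferInstance : CommRing Ra) | false => (inferInstance : CommRing Rb)
  let i2 : ∀ i, Algebra R (Rₚ i) := fun i =>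
    match i with | true => (inferInstance : Algebra R Ra) | false => (inferInstance : Algebra R Rb)
  have i3 : ∀ i, IsLocalization.Away (el i) (Rₚ i) := fun i =>
    match i with
    | true => (inferInstance : IsLocalization.Away a Ra)
    | false => (inferInstance : IsLocalization.Away b Rb)
  let i4 : ∀ i, AddCommGroup (Mₚ i) := fun i =>
    match i with | true => (inferInstance : AddCommGroup Ma) | false => (inferInstance : AddCommGroup Mb)
  let i5 : ∀ i, Module R (Mₚ i) := fun i =>
    match i with | true => (inferInstance : Module R Ma) | false => (inferInstance : Module R Mb)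
  let i6 : ∀ i, Module (Rₚ i) (Mₚ i) := fun i =>
    match i with | true => (inferInstance : Module Ra Ma) | false => (inferInstance : Module Rb Mb)
  have i7 : ∀ i, IsScalarTower R (Rₚ i) (Mₚ i) := fun i =>
    match i with
    | true => (inferInstance : IsScalarTower R Ra Ma)
    | false => (inferInstance : IsScalarTower R Rb Mb)
  let φ : ∀ i, M →ₗ[R] Mₚ i := fun i => match i with | true => φa | false => φb
  have i8 : ∀ i, IsLocalizedModule.Away (el i) (φ i) := fun i =>
    match i with
    | true => (inferInstance : IsLocalizedModule.Away a φa)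
    | false => (inferInstance : IsLocalizedModule.Away b φb)
  have hrange : Set.range el = {a, b} := by
    ext r
    simp only [Set.mem_range, Bool.exists_bool, Set.mem_insert_iff, Set.mem_singleton_iff, el]
    constructor
    · rintro (h | h)
      · exact Or.inr h.symm
      · exact Or.inl h.symm
    · rintro (h | h)
      · exact Or.inr h.symm
      · exact Or.inl h.symm
  refine invertible_of_isLocalized_cover M el Rₚ Mₚ φ (by rw [hrange]; exact hab) (fun i => ?_)
  match i with
  | true => exact ha
  | false => exact hb

end Two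

end Fermat.Agent.JAC.Div.InvertibleCover56
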