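/-
Programme JAC (S25), work package A3 (relative divisors), brick A3.3a (helper56).

The line diagram `O(-D) = (I0 → I01 ← I1)` of a relative effective divisor `D ⊂ U0_B` given by an
ideal `I0 ≤ R0` with `R0 ⧸ I0` finite over `B`, in the ABSTRACT FAMILY setting
`(R0 → R01 ← R1; t, s)`, `R01 = R0[1/t] = R1[1/s]`, `t s = 1`:
* `I01 = I0 R01`, `I1 = ker (R1 → R01 ⧸ I01)` (the closure of `D ∩ U01` in `U1`);
* `rho0 : I0 → I01`, `rho1 : I1 → I01` are localisations at the powers of `t`, `s`;
* `exists_mem_I1_sub_one_mem_span`: `D` does not meet `s = 0`: there is `h ∈ I1` with `h ≡ 1 mod s`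
  (Cayley–Hamilton: `t` is integral over `B` modulo `I0`);
* `invertible_I01`, `invertible_I1`: if `I0` is an invertible `R0`-module then `I01`, `I1` are
  invertible (for `I1`: cover `Spec R1` by `D(s)` and `D(h)`).
The statement is symmetric: exchange the roles of `(R0, t)` and `(R1, s)` to treat divisors in `U1`.
-/
import Fermat.Agent.JAC.Div.CartierInvertible56
import Fermat.Agent.JAC.Div.InvertibleCover56

set_option autoImplicit false

open TensorProduct Polynomial

namespace Fermat.Agent.JAC.Div.DivisorDiagram56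

open Fermat.Agent.JAC.Div.CartierLocal56 Fermat.Agent.JAC.Div.CartierInvertible56
  Fermat.Agent.JAC.Div.InvertibleCover56

universe u

variable {B : Type*} [CommRing B]
variable {R0 R1 R01 : Type u} [CommRing R0] [CommRing R1] [CommRing R01]
variable [Algebra B R0] [Algebra B R1] [Algebra B R01] [Algebra R0 R01] [Algebra R1 R01]
variable [IsScalarTower B R0 R01] [IsScalarTower B R1 R01]
variable (t : R0) (s : R1) [IsLocalization.Away t R01] [IsLocalization.Away s R01]
variable (I0 : Ideal R0)

/-- The ideal of the divisor on the overlap `U01`. -/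
def I01 : Ideal R01 := I0.map (algebraMap R0 R01)

/-- The ideal of (the closure of) the divisor on the second chart `U1`. -/
def I1 : Ideal R1 := (I01 (R01 := R01) I0).comap (algebraMap R1 R01)

/-- The restriction map `I0 → I01`. -/
def rho0 : I0 →ₗ[R0] I01 (R01 := R01) I0 := Algebra.idealMap R01 I0

instance : IsLocalizedModule (Submonoid.powers t) (rho0 (R01 := R01) I0) :=
  Algebra.idealMap_isLocalizedModule R01 (Submonoid.powers t) I0

include s in
theorem map_I1 : (I1 (R1 := R1) (R01 := R01) I0).map (algebraMap R1 R01) = I01 I0 :=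
  IsLocalization.map_under (Submonoid.powers s) R01 (I01 (R01 := R01) I0)

/-- The restriction map `I1 → I01`. -/
def rho1 : I1 (R1 := R1) (R01 := R01) I0 →ₗ[R1] I01 (R01 := R01) I0 :=
  (Algebra.linearMap R1 R01).restrict
    (p := (I1 (R1 := R1) (R01 := R01) I0).restrictScalars R1)
    (q := (I01 (R01 := R01) I0).restrictScalars R1) (fun _ hx => hx)

@[simp] theorem rho0_apply (x : I0) : (rho0 (R01 := R01) I0 x : R01) = algebraMap R0 R01 x := rfl

@[simp] theorem rho1_apply (x : I1 (R1 := R1) (R01 := R01) I0) :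
    (rho1 (R1 := R1) (R01 := R01) I0 x : R01) = algebraMap R1 R01 x := rfl

instance : IsLocalizedModule (Submonoid.powers s) (rho1 (R1 := R1) (R01 := R01) I0) := by
  have hmap := map_I1 (R1 := R1) (R01 := R01) s I0
  let e : ((I1 (R1 := R1) (R01 := R01) I0).map (algebraMap R1 R01)) ≃ₗ[R1] I01 (R01 := R01) I0 :=
    LinearEquiv.ofEq (((I1 (R1 := R1) (R01 := R01) I0).map (algebraMap R1 R01)).restrictScalars R1)
      ((I01 (R01 := R01) I0).restrictScalars R1) (by rw [hmap])
  have h1 : IsLocalizedModule (Submonoid.powers s)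
      (e.toLinearMap ∘ₗ Algebra.idealMap R01 (I1 (R1 := R1) (R01 := R01) I0)) :=
    IsLocalizedModule.of_linearEquiv (Submonoid.powers s)
      (Algebra.idealMap R01 (I1 (R1 := R1) (R01 := R01) I0)) e
  have h2 : rho1 (R1 := R1) (R01 := R01) I0 =
      e.toLinearMap ∘ₗ Algebra.idealMap R01 (I1 (R1 := R1) (R01 := R01) I0) := by
    ext x
    rfl
  rw [h2]
  exact h1

omit [IsLocalization.Away t R01] [IsLocalization.Away s R01] in
/-- If `R0 ⧸ I0` is finite over `B`, the divisor is closed in the second chart, away from `s = 0`: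
there is `h ∈ I1` with `h ≡ 1` modulo `s` (Cayley–Hamilton: `t` is integral over `B` modulo `I0`). -/
theorem exists_mem_I1_sub_one_mem_span [Module.Finite B (R0 ⧸ I0)]
    (hts : algebraMap R0 R01 t * algebraMap R1 R01 s = 1) :
    ∃ h ∈ I1 (R1 := R1) (R01 := R01) I0, h - 1 ∈ Ideal.span {s} := by
  have hint : Algebra.IsIntegral B (R0 ⧸ I0) := Algebra.IsIntegral.of_finite B (R0 ⧸ I0)
  obtain ⟨P, hmonic, hP⟩ := hint.isIntegral (Ideal.Quotient.mk I0 t)
  -- `P(t) ∈ I0`
  have hPt : aeval t P ∈ I0 := by
    rw [← Ideal.Quotient.eq_zero_iff_mem]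
    have : (Ideal.Quotient.mk I0) (aeval t P) = aeval ((Ideal.Quotient.mk I0) t) P := by
      have := Polynomial.aeval_algHom_apply (Ideal.Quotient.mkₐ B I0) t P
      simpa using this.symm
    rw [this]
    exact hP
  refine ⟨aeval s P.reverse, ?_, ?_⟩
  · -- membership in `I1`
    show algebraMap R1 R01 (aeval s P.reverse) ∈ I01 (R01 := R01) I0
    rw [← Polynomial.aeval_algebraMap_apply]
    let _ : Invertible (algebraMap R0 R01 t) := ⟨algebraMap R1 R01 s, by rw [mul_comm]; exact hts, hts⟩
    have h1 := Polynomial.eval₂_reverse_mul_pow (algebraMap B R01) (algebraMap R0 R01 t) P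
    have hinv : ⅟(algebraMap R0 R01 t) = algebraMap R1 R01 s := rfl
    rw [hinv] at h1
    have h2 : aeval (algebraMap R1 R01 s) P.reverse =
        (algebraMap R1 R01 s) ^ P.natDegree * algebraMap R0 R01 (aeval t P) := by
      rw [← Polynomial.aeval_algebraMap_apply, Polynomial.aeval_def, Polynomial.aeval_def, ← h1]
      rw [mul_comm, mul_assoc, ← mul_pow, hts, one_pow, mul_one]
    rw [h2]
    exact Ideal.mul_mem_left _ _ (Ideal.mem_map_of_mem _ hPt)
  · -- congruent to `1` modulo `s`
    have h3 : P.reverse = P.reverse.divX * X + C 1 := by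
      conv_lhs => rw [← Polynomial.divX_mul_X_add P.reverse]
      rw [Polynomial.coeff_zero_reverse, hmonic.leadingCoeff]
    rw [h3, map_add, map_mul, aeval_X, aeval_C, map_one, add_sub_cancel_right]
    exact Ideal.mem_span_singleton'.mpr ⟨_, rfl⟩


include t in
/-- `I01` is invertible over `R01` when `I0` is invertible over `R0`. -/
theorem invertible_I01 [Module.Invertible R0 I0] : Module.Invertible R01 (I01 (R01 := R01) I0) :=
  Module.Invertible.of_isLocalization (Submonoid.powers t) (rho0 (R01 := R01) I0)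

/-- **The ideal of the divisor in the second chart is invertible.** -/
theorem invertible_I1 [Module.Finite B (R0 ⧸ I0)] [Module.Invertible R0 I0]
    (hts : algebraMap R0 R01 t * algebraMap R1 R01 s = 1) :
    Module.Invertible R1 (I1 (R1 := R1) (R01 := R01) I0) := by
  obtain ⟨h, hI1, hs1⟩ := exists_mem_I1_sub_one_mem_span (B := B) (R01 := R01) t s I0 hts
  have hcover : Ideal.span {s, h} = ⊤ := by
    rw [Ideal.eq_top_iff_one]
    have h1 : (1 : R1) = h - (h - 1) := by ring
    rw [h1]
    refine Ideal.sub_mem _ (Ideal.subset_span (by simp)) ?_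
    exact (Ideal.span_mono (by simp : ({s} : Set R1) ⊆ {s, h})) hs1
  have hinv01 : Module.Invertible R01 (I01 (R01 := R01) I0) := invertible_I01 t I0
  have hgen : IsLocalGenerator (I1 (R1 := R1) (R01 := R01) I0) h h :=
    ⟨hI1, fun g _ => Ideal.mem_span_singleton'.mpr ⟨g, mul_comm g h⟩,
      fun x hx => ⟨1, by rw [pow_one]; exact hx⟩⟩
  obtain ⟨e⟩ := nonempty_equiv_of_isLocalGenerator _ hgen
  have hinvh : Module.Invertible (Localization.Away h)
      (LocalizedModule.Away h (I1 (R1 := R1) (R01 := R01) I0)) := Module.Invertible.congr e.symm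
  exact invertible_of_two_cover (I1 (R1 := R1) (R01 := R01) I0) s h
    R01 (I01 (R01 := R01) I0) (rho1 (R1 := R1) (R01 := R01) I0)
    (Localization.Away h) (LocalizedModule.Away h (I1 (R1 := R1) (R01 := R01) I0))
    (LocalizedModule.mkLinearMap (Submonoid.powers h) (I1 (R1 := R1) (R01 := R01) I0)) hcover

end Fermat.Agent.JAC.Div.DivisorDiagram56
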