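/-
Programme JAC (S25), work package A3 (relative divisors), brick A3.2e (helper56): adapters for the
chart team.

* `not_isField_baseChange_of_not_finite`, `not_finite_of_free_polynomial`,
  `not_finite_of_not_isField`: the "not a field" input of `CartierFinal56` from the CURVE block.
* `invertible_of_isBasedQuot` (and the primed CURVE block form): a `β`-based quotient ideal
  `I ≤ B ⊗[k] A0` (helper46's `IsBasedQuot`) is an invertible `B ⊗[k] A0`-module.
* `I1_sup_span_eq_top`: the closure `I1` in the second chart of a `B`-finite divisor of the first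
  chart is comaximal with `s` (the form consumed by `Hilb/IdealDiagBC46`).
-/
import Fermat.Agent.JAC.Div.CartierFinal56
import Fermat.Agent.JAC.Div.DivisorDiagram56
import Fermat.Agent.JAC.Hilb.BasedQuot46

set_option autoImplicit false

open TensorProduct Polynomial

namespace Fermat.Agent.JAC.Div.BasedInvertible56

open Fermat.Agent.JAC.Div.CartierFinal56 Fermat.Agent.JAC.Hilb.BasedQuot46
  Fermat.Agent.JAC.Div.DivisorDiagram56

section NotField

universe u v w

variable {k : Type u} [Field k] {A0 : Type v} [CommRing A0] [Algebra k A0]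

/-- A finite type algebra over a field which is not finite-dimensional stays "not a field" after
every base field extension (Zariski's lemma). -/
theorem not_isField_baseChange_of_not_finite [Algebra.FiniteType k A0]
    (hA0 : ¬ Module.Finite k A0) (K : Type w) [Field K] [Algebra k K] :
    ¬ IsField (K ⊗[k] A0) := by
  intro hF
  apply hA0
  let _ : Field (K ⊗[k] A0) := hF.toField
  have hfin : Module.Finite K (K ⊗[k] A0) := finite_of_finite_type_of_isJacobsonRing K (K ⊗[k] A0)
  rw [← Module.rank_lt_aleph0_iff] at hfin ⊢
  rw [Module.rank_baseChange] at hfin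
  exact Cardinal.lift_lt_aleph0.mp hfin

/-- A nontrivial algebra which is free over `k[X]` is not finite-dimensional over `k`. -/
theorem not_finite_of_free_polynomial [Algebra k[X] A0] [IsScalarTower k k[X] A0]
    [Module.Free k[X] A0] [Nontrivial A0] : ¬ Module.Finite k A0 := by
  intro hfin
  have hinj : Function.Injective (algebraMap k[X] A0) :=
    FaithfulSMul.algebraMap_injective k[X] A0
  let f : k[X] →ₗ[k] A0 := (IsScalarTower.toAlgHom k k[X] A0).toLinearMap
  have hf : Function.Injective f := hinj
  have : Module.Finite k k[X] := Module.Finite.of_injective f hf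
  exact Polynomial.not_finite this

/-- A domain which is not a field is not finite-dimensional over a field. -/
theorem not_finite_of_not_isField [IsDomain A0] (hA0 : ¬ IsField A0) : ¬ Module.Finite k A0 := by
  intro hfin
  have : Algebra.IsIntegral k A0 := Algebra.IsIntegral.of_finite k A0
  exact hA0 (isField_of_isIntegral_of_isField' (Field.toIsField k))

end NotField

section Main

universe u

variable {k : Type u} [Field k] {A0 : Type u} [CommRing A0] [Algebra k A0]
variable {B : Type u} [CommRing B] [Algebra k B]
variable {ι : Type*} [Fintype ι]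

theorem finite_of_isBasedQuot {β : ι → A0} {I : Ideal (B ⊗[k] A0)} (h : IsBasedQuot β I) :
    Module.Finite B ((B ⊗[k] A0) ⧸ I) :=
  Module.Finite.equiv h.equiv

theorem free_of_isBasedQuot {β : ι → A0} {I : Ideal (B ⊗[k] A0)} (h : IsBasedQuot β I) :
    Module.Free B ((B ⊗[k] A0) ⧸ I) :=
  Module.Free.of_equiv h.equiv

/-- **A3.2 fibre adapter** (request of the chart team): over any `k`-algebra `B`, a `β`-based
quotient ideal `I ≤ B ⊗[k] A0` is an invertible module, provided all `K ⊗[k] A0` are Dedekind
domains and `A0` is of finite type and not finite-dimensional over `k`. -/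
theorem invertible_of_isBasedQuot [Algebra.FiniteType k A0]
    (hded : ∀ (K : Type u) [Field K] [Algebra k K], IsDedekindDomain (K ⊗[k] A0))
    (hA0 : ¬ Module.Finite k A0) (β : ι → A0) (I : Ideal (B ⊗[k] A0)) (h : IsBasedQuot β I) :
    Module.Invertible (B ⊗[k] A0) I := by
  have : Module.Finite B ((B ⊗[k] A0) ⧸ I) := finite_of_isBasedQuot h
  have : Module.Free B ((B ⊗[k] A0) ⧸ I) := free_of_isBasedQuot h
  exact invertible_of_dedekind_fibres_const
    (fun K _ _ => ⟨hded K, not_isField_baseChange_of_not_finite hA0 K⟩) I

/-- CURVE block form: `A0` finite free over `k[X]` (`X ↦ t`). -/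
theorem invertible_of_isBasedQuot' [Algebra.FiniteType k A0] [Algebra k[X] A0]
    [IsScalarTower k k[X] A0] [Module.Free k[X] A0] [Nontrivial A0]
    (hded : ∀ (K : Type u) [Field K] [Algebra k K], IsDedekindDomain (K ⊗[k] A0))
    (β : ι → A0) (I : Ideal (B ⊗[k] A0)) (h : IsBasedQuot β I) :
    Module.Invertible (B ⊗[k] A0) I :=
  invertible_of_isBasedQuot hded not_finite_of_free_polynomial β I h

end Main

section Infinity

universe u

variable {B : Type*} [CommRing B]
variable {R0 R1 R01 : Type u} [CommRing R0] [CommRing R1] [CommRing R01]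
variable [Algebra B R0] [Algebra B R1] [Algebra B R01] [Algebra R0 R01] [Algebra R1 R01]
variable [IsScalarTower B R0 R01] [IsScalarTower B R1 R01]
variable (t : R0) (s : R1)
variable (I0 : Ideal R0)

/-- The closure `I1` of a `B`-finite divisor of the first chart is comaximal with `s`
(the divisor does not meet infinity). -/
theorem I1_sup_span_eq_top [Module.Finite B (R0 ⧸ I0)]
    (hts : algebraMap R0 R01 t * algebraMap R1 R01 s = 1) :
    I1 (R1 := R1) (R01 := R01) I0 ⊔ Ideal.span {s} = ⊤ := by
  obtain ⟨h, hI1, hs1⟩ := exists_mem_I1_sub_one_mem_span (B := B) (R01 := R01) t s I0 hts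
  rw [Ideal.eq_top_iff_one]
  have h1 : (1 : R1) = h - (h - 1) := by ring
  rw [h1]
  exact Ideal.sub_mem _ (Ideal.mem_sup_left hI1) (Ideal.mem_sup_right hs1)

end Infinity

end Fermat.Agent.JAC.Div.BasedInvertible56
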