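/-
Programme JAC (S25), work package A3 (relative divisors), brick A3.3c (helper56): flatness of the
divisor in the second chart.

ABSTRACT FAMILY `(R0 → R01 ← R1; t, s)` over `B`, `I0 ≤ R0` with `R0 ⧸ I0` finite over `B`,
`I01 = I0 R01`, `I1 = ker (R1 → R01 ⧸ I01)` (notation of `DivisorDiagram56`):
* `quotEquiv1 : R1 ⧸ I1 ≃ₐ[R1] R01 ⧸ I01` (`D ∩ U1 = D ∩ U01`, since `D` does not meet `s = 0`);
* `flat_quotient_I01`, `flat_quotient_I1`: if `R0 ⧸ I0` is flat over `B` then so are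
  `R01 ⧸ I01 = (R0 ⧸ I0)[1/t]` and `R1 ⧸ I1` (NOT finite over `B` in general: `D` may meet `t = 0`).
This is the input "`R_i ⧸ Z_i` flat over the base" of the base change of `idealDiag` on the chart `1`.
-/
import Fermat.Agent.JAC.Div.BasedInvertible56

set_option autoImplicit false

open TensorProduct Polynomial

namespace Fermat.Agent.JAC.Div.DivisorFlat56

open Fermat.Agent.JAC.Div.DivisorDiagram56 Fermat.Agent.JAC.Div.BasedInvertible56

universe u

variable {B : Type*} [CommRing B]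
variable {R0 R1 R01 : Type u} [CommRing R0] [CommRing R1] [CommRing R01]
variable [Algebra B R0] [Algebra B R1] [Algebra B R01] [Algebra R0 R01] [Algebra R1 R01]
variable [IsScalarTower B R0 R01] [IsScalarTower B R1 R01]
variable (t : R0) (s : R1) [IsLocalization.Away t R01] [IsLocalization.Away s R01]
variable (I0 : Ideal R0)

/-- The comparison map `R1 ⧸ I1 → R01 ⧸ I01` (functions on `D ∩ U1` to functions on `D ∩ U01`). -/
def quotMap1 : R1 ⧸ I1 (R1 := R1) (R01 := R01) I0 →ₐ[R1] R01 ⧸ I01 (R01 := R01) I0 :=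
  Ideal.quotientMapₐ (I01 (R01 := R01) I0) (Algebra.ofId R1 R01) (le_refl _)

theorem quotMap1_mk (x : R1) :
    quotMap1 (R1 := R1) (R01 := R01) I0 (Ideal.Quotient.mk _ x) =
      Ideal.Quotient.mk _ (algebraMap R1 R01 x) := rfl

theorem quotMap1_injective : Function.Injective (quotMap1 (R1 := R1) (R01 := R01) I0) := by
  rw [injective_iff_map_eq_zero]
  intro x hx
  obtain ⟨x, rfl⟩ := Ideal.Quotient.mk_surjective x
  rw [quotMap1_mk, Ideal.Quotient.eq_zero_iff_mem] at hx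
  exact Ideal.Quotient.eq_zero_iff_mem.mpr hx

omit [IsLocalization.Away t R01] in
include t in
/-- `D ∩ U1 = D ∩ U01`: the divisor does not meet `s = 0`. -/
theorem quotMap1_surjective [Module.Finite B (R0 ⧸ I0)]
    (hts : algebraMap R0 R01 t * algebraMap R1 R01 s = 1) :
    Function.Surjective (quotMap1 (R1 := R1) (R01 := R01) I0) := by
  obtain ⟨h, hI1, hs1⟩ := exists_mem_I1_sub_one_mem_span (B := B) (R01 := R01) t s I0 hts
  obtain ⟨c, hc⟩ := Ideal.mem_span_singleton'.mp hs1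
  -- `s * (-c) ≡ 1` modulo `I1`
  intro y
  obtain ⟨y, rfl⟩ := Ideal.Quotient.mk_surjective y
  obtain ⟨⟨x, ⟨_, n, rfl⟩⟩, hx⟩ := IsLocalization.surj (Submonoid.powers s) y
  simp only at hx
  refine ⟨Ideal.Quotient.mk _ (x * (-c) ^ n), ?_⟩
  rw [quotMap1_mk, eq_comm, Ideal.Quotient.eq]
  have h0 : y - algebraMap R1 R01 (x * (-c) ^ n) = y * algebraMap R1 R01 (1 - (s * -c) ^ n) := by
    rw [map_mul, ← hx]
    simp only [map_sub, map_one, map_pow, map_mul, map_neg]
    ring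
  rw [h0]
  refine Ideal.mul_mem_left _ _ ?_
  show 1 - (s * -c) ^ n ∈ I1 (R1 := R1) (R01 := R01) I0
  have h2 : 1 - s * -c ∈ I1 (R1 := R1) (R01 := R01) I0 := by
    have : 1 - s * -c = h := by
      have : h = (h - 1) + 1 := by ring
      rw [this, ← hc]; ring
    rw [this]; exact hI1
  obtain ⟨d, hd⟩ := sub_dvd_pow_sub_pow (1 : R1) (s * -c) n
  rw [one_pow] at hd
  rw [hd]
  exact Ideal.mul_mem_right _ _ h2

/-- `R1 ⧸ I1 ≃ R01 ⧸ I01`: functions on `D ∩ U1` and on `D ∩ U01` agree. -/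
noncomputable def quotEquiv1 [Module.Finite B (R0 ⧸ I0)]
    (hts : algebraMap R0 R01 t * algebraMap R1 R01 s = 1) :
    (R1 ⧸ I1 (R1 := R1) (R01 := R01) I0) ≃ₐ[R1] (R01 ⧸ I01 (R01 := R01) I0) :=
  AlgEquiv.ofBijective (quotMap1 (R1 := R1) (R01 := R01) I0)
    ⟨quotMap1_injective I0, quotMap1_surjective (B := B) t s I0 hts⟩

include t in
/-- `R01 ⧸ I01 = (R0 ⧸ I0)[1/t]` is flat over `B` when `R0 ⧸ I0` is. -/
theorem flat_quotient_I01 [Module.Flat B (R0 ⧸ I0)] :
    Module.Flat B (R01 ⧸ I01 (R01 := R01) I0) := by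
  have h1 : Module.Flat (R0 ⧸ I0) (R01 ⧸ I0.map (algebraMap R0 R01)) :=
    IsLocalization.flat _ (Algebra.algebraMapSubmonoid (R0 ⧸ I0) (Submonoid.powers t))
  have h2 : IsScalarTower B (R0 ⧸ I0) (R01 ⧸ I0.map (algebraMap R0 R01)) :=
    IsScalarTower.of_algebraMap_eq (fun b => by
      rw [IsScalarTower.algebraMap_apply B R01 (R01 ⧸ I0.map (algebraMap R0 R01)),
        IsScalarTower.algebraMap_apply B R0 R01,
        IsScalarTower.algebraMap_apply B R0 (R0 ⧸ I0)]
      rfl)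
  exact Module.Flat.trans B (R0 ⧸ I0) (R01 ⧸ I0.map (algebraMap R0 R01))

/-- **`R1 ⧸ I1` is flat over `B`** when `R0 ⧸ I0` is finite and flat over `B`. -/
theorem flat_quotient_I1 [Module.Finite B (R0 ⧸ I0)] [Module.Flat B (R0 ⧸ I0)]
    (hts : algebraMap R0 R01 t * algebraMap R1 R01 s = 1) :
    Module.Flat B (R1 ⧸ I1 (R1 := R1) (R01 := R01) I0) := by
  have := flat_quotient_I01 (B := B) (R01 := R01) t I0
  let e : (R1 ⧸ I1 (R1 := R1) (R01 := R01) I0) ≃ₗ[B] (R01 ⧸ I01 (R01 := R01) I0) :=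
    { (quotEquiv1 (B := B) t s I0 hts).toLinearEquiv.toAddEquiv with
      map_smul' := fun b x => by
        obtain ⟨x, rfl⟩ := Ideal.Quotient.mk_surjective x
        show quotMap1 I0 (b • Ideal.Quotient.mk _ x) = b • quotMap1 I0 (Ideal.Quotient.mk _ x)
        rw [Algebra.smul_def, Algebra.smul_def, map_mul]
        congr 1
        rw [IsScalarTower.algebraMap_apply B R1 (R1 ⧸ I1 (R1 := R1) (R01 := R01) I0),
          IsScalarTower.algebraMap_apply B R01 (R01 ⧸ I01 (R01 := R01) I0),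
          IsScalarTower.algebraMap_apply B R1 R01]
        rfl }
  exact Module.Flat.of_linearEquiv e

end Fermat.Agent.JAC.Div.DivisorFlat56
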