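/-
Programme JAC (S25), work package A3 (relative divisors), brick A3.3b (helper56).

Packaging of `DivisorDiagram56` as a `LineDiag` of `Core/Defs36`: the line diagram `O(-D)` of a
relative effective divisor, and its canonical map to the unit diagram.
-/
import Fermat.Agent.JAC.Div.DivisorDiagram56
import Fermat.Agent.JAC.Core.Defs36

set_option autoImplicit false

namespace Fermat.Agent.JAC.Div.DivisorLineDiag56

open Fermat.Agent.JAC.Div.DivisorDiagram56 Fermat.Agent.JAC.Core.Defs36

universe u

variable (B : Type*) [CommRing B]
variable {R0 R1 R01 : Type u} [CommRing R0] [CommRing R1] [CommRing R01]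
variable [Algebra B R0] [Algebra B R1] [Algebra B R01] [Algebra R0 R01] [Algebra R1 R01]
variable [IsScalarTower B R0 R01] [IsScalarTower B R1 R01]
variable (t : R0) (s : R1) [IsLocalization.Away t R01] [IsLocalization.Away s R01]
variable (I0 : Ideal R0)

/-- The line diagram `O(-D)` of the relative effective divisor `D = V(I0) ⊂ U0`. -/
noncomputable def idealDiag [Module.Finite B (R0 ⧸ I0)] [Module.Invertible R0 I0]
    (hts : algebraMap R0 R01 t * algebraMap R1 R01 s = 1) : LineDiag t s R01 where
  M0 := I0
  M1 := I1 (R1 := R1) (R01 := R01) I0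
  M01 := I01 (R01 := R01) I0
  rho0 := rho0 (R01 := R01) I0
  rho1 := rho1 (R1 := R1) (R01 := R01) I0
  invertible1 := invertible_I1 (B := B) t s I0 hts

end Fermat.Agent.JAC.Div.DivisorLineDiag56
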