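/-
Programme JAC (S25), work package A3 (relative divisors), brick A3.2d (helper56).

THE FIBRE ADAPTER.  Let `R` be a `B`-algebra which is free as a `B`-module, `P` a prime of `R`,
`𝔭 = P ∩ B` and `K = Frac (B ⧸ 𝔭)` (any model).  We study the fibre `K ⊗[B] R`:
* `toFibre_eq_zero_iff`: the kernel of `R → K ⊗[B] R` is `𝔭 R`;
* `exists_denominator`: every element of the fibre is `1 ⊗ r` up to a factor in `B ∖ 𝔭`;
* `fibrePrime`, `fibrePrime_isPrime`, `toFibre_mem_fibrePrime_iff`: the prime of the fibre above `P`;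
* `exists_toFibre_ne_zero`: if `R ⧸ I` is finite over `B` and the fibre is a domain but not a field,
  then `I` is nonzero in the fibre;
* `exists_local_divisor`: in a Dedekind domain, locally at a nonzero prime, a set of elements
  contains one dividing all the others;
* `fibreGen_of_isDedekindDomain`: if the fibre is a Dedekind domain and not a field then
  `CartierLocal56.FibreGen e I P` holds for every prime `P ⊇ I`;
* `invertible_of_dedekind_fibres`: **A3.2, final form**: an ideal `I` of a finite type free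
  `B`-algebra `R` with `R ⧸ I` finite projective over `B` is an invertible `R`-module as soon as
  `K ⊗[B] R` is a Dedekind domain and not a field for every field `K` over `B`.
-/
import Fermat.Agent.JAC.Div.CartierInvertible56

set_option autoImplicit false
set_option linter.unusedSectionVars false

open TensorProduct

namespace Fermat.Agent.JAC.Div.FibreAdapter56

open Fermat.Agent.JAC.Div.CartierLocal56 Fermat.Agent.JAC.Div.CartierInvertible56

/-- In a Dedekind domain, at a nonzero prime `Q`, any set of elements containing a nonzero element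
contains an element which divides all the others in the local ring at `Q`. -/
theorem exists_local_divisor {A : Type*} [CommRing A] [IsDedekindDomain A] (Q : Ideal A)
    [Q.IsPrime] (hQ : Q ≠ ⊥) (S : Set A) (hS : ∃ g ∈ S, g ≠ 0) :
    ∃ f ∈ S, f ≠ 0 ∧ ∀ g ∈ S, ∃ d, d ∉ Q ∧ ∃ c, d * g = c * f := by
  let Aₘ := Localization.AtPrime Q
  have hinj : Function.Injective (algebraMap A Aₘ) :=
    IsLocalization.injective Aₘ Q.primeCompl_le_nonZeroDivisors
  have : IsDomain Aₘ := IsLocalization.isDomain_localization Q.primeCompl_le_nonZeroDivisors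
  have : IsDiscreteValuationRing Aₘ :=
    IsLocalization.AtPrime.isDiscreteValuationRing_of_dedekind_domain A hQ Aₘ
  let v : A → ℕ∞ := fun a => IsDiscreteValuationRing.addVal Aₘ (algebraMap A Aₘ a)
  obtain ⟨g₀, hg₀S, hg₀⟩ := hS
  have hne : (v '' S).Nonempty := ⟨v g₀, g₀, hg₀S, rfl⟩
  obtain ⟨m, ⟨f, hfS, rfl⟩, hmin⟩ := WellFounded.has_min wellFounded_lt (v '' S) hne
  have hvf : ∀ g ∈ S, v f ≤ v g := fun g hg => not_lt.mp (hmin (v g) ⟨g, hg, rfl⟩)
  refine ⟨f, hfS, ?_, ?_⟩
  · intro hf0
    have h1 : v f = ⊤ := by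
      simp only [v, hf0, map_zero, IsDiscreteValuationRing.addVal_zero]
    have h2 : v g₀ = ⊤ := top_le_iff.mp (h1 ▸ hvf g₀ hg₀S)
    have h3 : algebraMap A Aₘ g₀ = 0 := IsDiscreteValuationRing.addVal_eq_top_iff.mp h2
    exact hg₀ (hinj (by rw [h3, map_zero]))
  · intro g hg
    obtain ⟨y, hy⟩ := IsDiscreteValuationRing.addVal_le_iff_dvd.mp (hvf g hg)
    obtain ⟨c, d, rfl⟩ := IsLocalization.exists_mk'_eq Q.primeCompl y
    refine ⟨d.1, d.2, c, ?_⟩
    apply hinj
    rw [map_mul, map_mul, hy]
    have hspec := IsLocalization.mk'_spec Aₘ c d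
    calc algebraMap A Aₘ d.1 * (algebraMap A Aₘ f * IsLocalization.mk' Aₘ c d)
        = algebraMap A Aₘ f * (IsLocalization.mk' Aₘ c d * algebraMap A Aₘ d.1) := by ring
      _ = algebraMap A Aₘ c * algebraMap A Aₘ f := by rw [hspec]; ring


section NonZero

variable {B R : Type*} [CommRing B] [CommRing R] [Algebra B R]
variable (K : Type*) [Field K] [Algebra B K]

/-- The map to the fibre. -/
abbrev toFibre : R →ₐ[B] K ⊗[B] R := Algebra.TensorProduct.includeRight

/-- If `R ⧸ I` is finite over `B` and the fibre `K ⊗ R` is a domain which is not a field, then `I`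
is not contained in the kernel of `R → K ⊗ R`. -/
theorem exists_toFibre_ne_zero (I : Ideal R) [Module.Finite B (R ⧸ I)] [IsDomain (K ⊗[B] R)]
    (hfield : ¬ IsField (K ⊗[B] R)) : ∃ g ∈ I, toFibre (B := B) K g ≠ 0 := by
  by_contra hall
  push Not at hall
  apply hfield
  -- the map `K ⊗ R → K ⊗ (R ⧸ I)` is injective
  let π : R →ₗ[B] R ⧸ I := (Ideal.Quotient.mkₐ B I).toLinearMap
  have hπ : Function.Surjective π := Ideal.Quotient.mk_surjective
  have hex : Function.Exact (I.restrictScalars B).subtype π := by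
    intro r
    simp only [π, AlgHom.toLinearMap_apply, Ideal.Quotient.mkₐ_eq_mk, Set.mem_range,
      Submodule.coe_subtype, Subtype.exists, exists_prop, exists_eq_right]
    exact Ideal.Quotient.eq_zero_iff_mem
  have hzero : ∀ w : K ⊗[B] (I.restrictScalars B),
      ((I.restrictScalars B).subtype.lTensor K) w = 0 := by
    intro w
    induction w using TensorProduct.induction_on with
    | zero => simp
    | add a b ha hb => rw [map_add, ha, hb, add_zero]
    | tmul x g =>
      rw [LinearMap.lTensor_tmul]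
      have hg : toFibre (B := B) K (g : R) = 0 := hall g.1 g.2
      have : x ⊗ₜ[B] (g : R) = x • toFibre (B := B) K (g : R) := by
        rw [Algebra.TensorProduct.includeRight_apply, TensorProduct.smul_tmul', smul_eq_mul, mul_one]
      show x ⊗ₜ[B] (g : R) = 0
      rw [this, hg, smul_zero]
  have hinj : Function.Injective (π.lTensor K) := by
    rw [injective_iff_map_eq_zero]
    intro z hz
    obtain ⟨w, rfl⟩ := (lTensor_exact K hex hπ z).mp hz
    exact hzero w
  -- hence `K ⊗ R` is finite over `K`
  have hfin : Module.Finite K (K ⊗[B] R) :=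
    Module.Finite.of_injective ((π.baseChange K)) (by
      rw [LinearMap.baseChange_eq_ltensor]; exact hinj)
  have : Algebra.IsIntegral K (K ⊗[B] R) := Algebra.IsIntegral.of_finite K _
  exact isField_of_isIntegral_of_isField' (Field.toIsField K)

end NonZero

variable {B R : Type*} [CommRing B] [CommRing R] [Algebra B R]
variable {ι : Type*} (e : Module.Basis ι B R)
variable (p : Ideal B) [p.IsPrime]
variable (K : Type*) [Field K] [Algebra B K] [Algebra (B ⧸ p) K] [IsScalarTower B (B ⧸ p) K]
  [IsFractionRing (B ⧸ p) K]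

include p in
theorem algebraMap_eq_zero_iff (b : B) : algebraMap B K b = 0 ↔ b ∈ p := by
  rw [IsScalarTower.algebraMap_apply B (B ⧸ p) K, Ideal.Quotient.algebraMap_eq,
    map_eq_zero_iff _ (IsFractionRing.injective (B ⧸ p) K), Ideal.Quotient.eq_zero_iff_mem]

include e p in
/-- The kernel of `R → K ⊗ R` is `𝔭 R`. -/
theorem toFibre_eq_zero_iff (r : R) :
    toFibre (B := B) K r = 0 ↔ r ∈ Ideal.map (algebraMap B R) p := by
  constructor
  · intro h
    have hcoord : ∀ j, e.repr r j ∈ p := by
      intro j
      have h1 := congrArg (fun z => (e.baseChange K).repr z j) h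
      simp only [Algebra.TensorProduct.includeRight_apply, Module.Basis.baseChange_repr_tmul,
        map_zero, Finsupp.coe_zero, Pi.zero_apply] at h1
      rw [Algebra.smul_def, mul_one] at h1
      exact (algebraMap_eq_zero_iff p K _).mp h1
    have hr := e.linearCombination_repr r
    rw [Finsupp.linearCombination_apply, Finsupp.sum] at hr
    rw [← hr]
    refine Ideal.sum_mem _ fun j _ => ?_
    rw [Algebra.smul_def]
    exact Ideal.mul_mem_right _ _ (Ideal.mem_map_of_mem _ (hcoord j))
  · intro h
    have hle : Ideal.map (algebraMap B R) p ≤ RingHom.ker (toFibre (B := B) (R := R) K).toRingHom := by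
      rw [Ideal.map_le_iff_le_comap]
      intro b hb
      rw [Ideal.mem_comap, RingHom.mem_ker]
      show toFibre (B := B) K (algebraMap B R b) = 0
      rw [AlgHom.commutes, Algebra.TensorProduct.algebraMap_apply,
        (algebraMap_eq_zero_iff p K b).mpr hb, zero_tmul]
    exact hle h

include p in
/-- Every element of `K` is a fraction of elements of `B` with denominator outside `𝔭`. -/
theorem exists_denominator_field (x : K) :
    ∃ β : B, β ∉ p ∧ ∃ a : B, algebraMap B K β * x = algebraMap B K a := by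
  obtain ⟨⟨a', b'⟩, hab⟩ := IsLocalization.surj (nonZeroDivisors (B ⧸ p)) x
  obtain ⟨a, rfl⟩ := Ideal.Quotient.mk_surjective a'
  obtain ⟨β, hβ⟩ := Ideal.Quotient.mk_surjective b'.1
  refine ⟨β, ?_, a, ?_⟩
  · intro hmem
    have : (b'.1 : B ⧸ p) = 0 := by rw [← hβ]; exact Ideal.Quotient.eq_zero_iff_mem.mpr hmem
    exact nonZeroDivisors.ne_zero b'.2 this
  · rw [IsScalarTower.algebraMap_apply B (B ⧸ p) K, IsScalarTower.algebraMap_apply B (B ⧸ p) K,
      Ideal.Quotient.algebraMap_eq, hβ, mul_comm]
    exact hab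

include p in
/-- **Common denominators in the fibre**: every element of `K ⊗[B] R` becomes of the form `1 ⊗ r`
after multiplication by some `β ∈ B ∖ 𝔭`. -/
theorem exists_denominator (z : K ⊗[B] R) :
    ∃ β : B, β ∉ p ∧ ∃ r : R, β • z = toFibre (B := B) K r := by
  induction z using TensorProduct.induction_on with
  | zero => exact ⟨1, fun h => (Ideal.IsPrime.ne_top inferInstance) ((Ideal.eq_top_iff_one p).mpr h),
      0, by simp⟩
  | tmul x r =>
    obtain ⟨β, hβ, a, ha⟩ := exists_denominator_field p K x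
    refine ⟨β, hβ, a • r, ?_⟩
    rw [TensorProduct.smul_tmul', Algebra.smul_def, ha, Algebra.TensorProduct.includeRight_apply,
      ← mul_one (algebraMap B K a), ← Algebra.smul_def, TensorProduct.smul_tmul]
  | add z w hz hw =>
    obtain ⟨β, hβ, r, hr⟩ := hz
    obtain ⟨γ, hγ, r', hr'⟩ := hw
    refine ⟨β * γ, fun h => (Ideal.IsPrime.mem_or_mem inferInstance h).elim hβ hγ,
      γ • r + β • r', ?_⟩
    have h1 : (β * γ) • z = γ • toFibre (B := B) K r := by
      rw [mul_comm, mul_smul, hr]
    have h2 : (β * γ) • w = β • toFibre (B := B) K r' := by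
      rw [mul_smul, hr']
    rw [smul_add, h1, h2, map_add, map_smul, map_smul]

include p in
/-- Elements of `B ∖ 𝔭` act invertibly on the fibre. -/
theorem isUnit_algebraMap_of_notMem {β : B} (hβ : β ∉ p) : IsUnit (algebraMap B (K ⊗[B] R) β) := by
  rw [Algebra.TensorProduct.algebraMap_apply]
  have hne : algebraMap B K β ≠ 0 := fun h => hβ ((algebraMap_eq_zero_iff p K β).mp h)
  have : IsUnit (algebraMap B K β) := IsUnit.mk0 _ hne
  exact (this.map (Algebra.TensorProduct.includeLeft (R := B) (S := B) (A := K) (B := R)))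

section Prime

variable (P : Ideal R) [P.IsPrime]

/-- The prime of the fibre corresponding to a prime `P` of `R` over `𝔭`. -/
def fibrePrime : Ideal (K ⊗[B] R) := Ideal.map (toFibre (B := B) K) P

variable (hP : P.comap (algebraMap B R) = p)

include hP in
theorem algebraMap_notMem_of_notMem {β : B} (hβ : β ∉ p) : algebraMap B R β ∉ P := by
  intro h
  apply hβ
  rw [← hP]
  exact Ideal.mem_comap.mpr h

include hP in
theorem exists_denominator_of_mem_fibrePrime (z : K ⊗[B] R) (hz : z ∈ fibrePrime (B := B) K P) :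
    ∃ β : B, β ∉ p ∧ ∃ r ∈ P, β • z = toFibre (B := B) K r := by
  unfold fibrePrime Ideal.map at hz
  induction hz using Submodule.span_induction with
  | mem z hz =>
    obtain ⟨r, hr, rfl⟩ := hz
    exact ⟨1, fun h => (Ideal.IsPrime.ne_top inferInstance) ((Ideal.eq_top_iff_one p).mpr h), r, hr,
      one_smul _ _⟩
  | zero =>
    exact ⟨1, fun h => (Ideal.IsPrime.ne_top inferInstance) ((Ideal.eq_top_iff_one p).mpr h), 0,
      P.zero_mem, by simp⟩
  | add z w _ _ hz hw =>
    obtain ⟨β, hβ, r, hrP, hr⟩ := hz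
    obtain ⟨γ, hγ, r', hr'P, hr'⟩ := hw
    refine ⟨β * γ, fun h => (Ideal.IsPrime.mem_or_mem inferInstance h).elim hβ hγ,
      γ • r + β • r', ?_, ?_⟩
    · rw [Algebra.smul_def, Algebra.smul_def]
      exact P.add_mem (P.mul_mem_left _ hrP) (P.mul_mem_left _ hr'P)
    · have h1 : (β * γ) • z = γ • toFibre (B := B) K r := by
        rw [mul_comm, mul_smul, hr]
      have h2 : (β * γ) • w = β • toFibre (B := B) K r' := by
        rw [mul_smul, hr']
      rw [smul_add, h1, h2, map_add, map_smul, map_smul]
  | smul c z _ hz =>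
    obtain ⟨β, hβ, r, hrP, hr⟩ := hz
    obtain ⟨γ, hγ, rc, hrc⟩ := exists_denominator p K c
    refine ⟨γ * β, fun h => (Ideal.IsPrime.mem_or_mem inferInstance h).elim hγ hβ,
      rc * r, P.mul_mem_left _ hrP, ?_⟩
    rw [map_mul, ← hrc, ← hr, smul_eq_mul, smul_mul_smul_comm]

include e hP in
theorem toFibre_mem_fibrePrime_iff (r : R) :
    toFibre (B := B) K r ∈ fibrePrime (B := B) K P ↔ r ∈ P := by
  constructor
  · intro h
    obtain ⟨β, hβ, r', hr'P, hr'⟩ := exists_denominator_of_mem_fibrePrime p K P hP _ h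
    have h0 : toFibre (B := B) K (β • r - r') = 0 := by
      rw [map_sub, map_smul, hr', sub_self]
    have h1 : β • r - r' ∈ P :=
      (Ideal.map_le_iff_le_comap.mpr (le_of_eq hP.symm)) ((toFibre_eq_zero_iff e p K _).mp h0)
    have h2 : β • r ∈ P := by
      have := P.add_mem h1 hr'P
      rwa [sub_add_cancel] at this
    rw [Algebra.smul_def] at h2
    exact (Ideal.IsPrime.mem_or_mem inferInstance h2).resolve_left
      (algebraMap_notMem_of_notMem p P hP hβ)
  · intro h
    exact Ideal.mem_map_of_mem _ h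

include e hP in
theorem fibrePrime_isPrime : (fibrePrime (B := B) K P).IsPrime := by
  constructor
  · intro htop
    have h1 : toFibre (B := B) K (1 : R) ∈ fibrePrime (B := B) K P := by
      rw [htop]; exact Submodule.mem_top
    exact (Ideal.IsPrime.ne_top inferInstance)
      ((Ideal.eq_top_iff_one P).mpr ((toFibre_mem_fibrePrime_iff e p K P hP 1).mp h1))
  · intro z w hzw
    obtain ⟨β, hβ, r, hr⟩ := exists_denominator p K z
    obtain ⟨γ, hγ, r', hr'⟩ := exists_denominator p K w
    have h1 : toFibre (B := B) K (r * r') ∈ fibrePrime (B := B) K P := by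
      rw [map_mul, ← hr, ← hr', smul_mul_smul_comm]
      exact Submodule.smul_of_tower_mem _ _ hzw
    have h2 := (toFibre_mem_fibrePrime_iff e p K P hP _).mp h1
    have hunit : ∀ {δ : B} {y : K ⊗[B] R}, δ ∉ p → δ • y ∈ fibrePrime (B := B) K P →
        y ∈ fibrePrime (B := B) K P := by
      intro δ y hδ hy
      obtain ⟨u, hu⟩ := isUnit_algebraMap_of_notMem (R := R) p K hδ
      have : y = (↑u⁻¹ : K ⊗[B] R) * (δ • y) := by
        rw [Algebra.smul_def, ← hu, ← mul_assoc, Units.inv_mul, one_mul]
      rw [this]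
      exact Ideal.mul_mem_left _ _ hy
    rcases Ideal.IsPrime.mem_or_mem inferInstance h2 with h | h
    · left
      apply hunit hβ
      rw [hr]
      exact (toFibre_mem_fibrePrime_iff e p K P hP _).mpr h
    · right
      apply hunit hγ
      rw [hr']
      exact (toFibre_mem_fibrePrime_iff e p K P hP _).mpr h

include e hP in
/-- **The fibre adapter**: if the fibre `K ⊗[B] R` over `𝔭 = P ∩ B` (`K = Frac (B ⧸ 𝔭)`) is a
Dedekind domain and not a field, and `R ⧸ I` is finite over `B`, then `I` is principal and nonzero in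
the local ring of the fibre at every prime `P ⊇ I`. -/
theorem fibreGen_of_isDedekindDomain (I : Ideal R) [Module.Finite B (R ⧸ I)] (hIP : I ≤ P)
    [IsDedekindDomain (K ⊗[B] R)] (hfield : ¬ IsField (K ⊗[B] R)) : FibreGen e I P := by
  have hprime : (fibrePrime (B := B) K P).IsPrime := fibrePrime_isPrime e p K P hP
  obtain ⟨g₀, hg₀I, hg₀⟩ := exists_toFibre_ne_zero (B := B) K I hfield
  have hne : fibrePrime (B := B) K P ≠ ⊥ := by
    intro hbot
    have : toFibre (B := B) K g₀ ∈ fibrePrime (B := B) K P :=
      (toFibre_mem_fibrePrime_iff e p K P hP g₀).mpr (hIP hg₀I)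
    rw [hbot] at this
    exact hg₀ this
  obtain ⟨f', ⟨f, hfI, rfl⟩, hf0, hdiv⟩ := exists_local_divisor (fibrePrime (B := B) K P) hne
    (toFibre (B := B) K '' (I : Set R)) ⟨_, ⟨g₀, hg₀I, rfl⟩, hg₀⟩
  refine ⟨f, hfI, ?_, ?_⟩
  · -- some coordinate of `f` is not in `𝔭`
    by_contra hall
    push Not at hall
    apply hf0
    rw [toFibre_eq_zero_iff e p K]
    have hr := e.linearCombination_repr f
    rw [Finsupp.linearCombination_apply, Finsupp.sum] at hr
    rw [← hr]
    refine Ideal.sum_mem _ fun j _ => ?_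
    rw [Algebra.smul_def]
    refine Ideal.mul_mem_right _ _ (Ideal.mem_map_of_mem _ ?_)
    have := hall j
    rwa [hP] at this
  · intro g hg
    obtain ⟨d, hd, c, hdc⟩ := hdiv _ ⟨g, hg, rfl⟩
    obtain ⟨β, hβ, d₀, hd₀⟩ := exists_denominator (R := R) p K d
    obtain ⟨γ, hγ, c₀, hc₀⟩ := exists_denominator (R := R) p K c
    have hd₀P : d₀ ∉ P := by
      intro h
      apply hd
      have h1 : β • d ∈ fibrePrime (B := B) K P := by
        rw [hd₀]; exact (toFibre_mem_fibrePrime_iff e p K P hP d₀).mpr h
      obtain ⟨u, hu⟩ := isUnit_algebraMap_of_notMem (R := R) p K hβ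
      have : d = (↑u⁻¹ : K ⊗[B] R) * (β • d) := by
        rw [Algebra.smul_def, ← hu, ← mul_assoc, Units.inv_mul, one_mul]
      rw [this]
      exact Ideal.mul_mem_left _ _ h1
    refine ⟨algebraMap B R γ * d₀, ?_, ?_⟩
    · intro h
      rcases Ideal.IsPrime.mem_or_mem inferInstance h with h | h
      · exact algebraMap_notMem_of_notMem p P hP hγ h
      · exact hd₀P h
    · have hker : toFibre (B := B) K (γ • (d₀ * g) - β • (c₀ * f)) = 0 := by
        rw [map_sub, map_smul, map_smul, map_mul, map_mul, ← hd₀, ← hc₀]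
        rw [smul_mul_assoc, smul_mul_assoc, smul_comm γ β, hdc, sub_self]
      have hmem := (toFibre_eq_zero_iff e p K _).mp hker
      have hu : algebraMap B R γ * d₀ * g = β • (c₀ * f) + (γ • (d₀ * g) - β • (c₀ * f)) := by
        rw [Algebra.smul_def γ]; ring
      rw [hu, hP]
      refine Submodule.add_mem_sup ?_ hmem
      rw [Algebra.smul_def, ← mul_assoc]
      exact Ideal.mem_span_singleton'.mpr ⟨_, rfl⟩

end Prime

end Fermat.Agent.JAC.Div.FibreAdapter56
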