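/-
Programme JAC (S25), work package A3 (relative divisors), brick A3.1a (helper56).

McCoy's theorem for modules: if `P : R[X]` kills a nonzero element of `M[X]` then some nonzero
`x : M` is killed by every coefficient of `P`.  Consequence: a polynomial of unit content is a
nonzerodivisor on `M[X] = R[X] ⊗ M` for every `R`-module `M`, and `R[X] ⧸ (P)` is `R`-flat.
-/
import Mathlib

set_option autoImplicit false

open Polynomial TensorProduct

namespace Fermat.Agent.JAC.Div.UnitContent56

variable {R : Type*} [CommRing R] {M : Type*} [AddCommGroup M] [Module R M]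

theorem coeff_smul_apply (r : R) (Q : PolynomialModule R M) (k : ℕ) :
    (r • Q).coeff k = r • Q.coeff k := by
  rfl

theorem C_smul_eq (r : R) (Q : PolynomialModule R M) : (C r : R[X]) • Q = r • Q := by
  have : (C r : R[X]) = r • (1 : R[X]) := by
    rw [Polynomial.smul_eq_C_mul, mul_one]
  rw [this, smul_assoc, one_smul]

theorem smul_smul_comm' (P : R[X]) (r : R) (Q : PolynomialModule R M) :
    P • (r • Q) = r • (P • Q) := by
  rw [← C_smul_eq, ← C_smul_eq, smul_smul, smul_smul, mul_comm]

theorem eq_zero_of_coeff_eq_zero (Q : PolynomialModule R M) (h : ∀ k, Q.coeff k = 0) : Q = 0 := by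
  rw [← PolynomialModule.coeff_eq_zero]
  ext k
  exact h k

/-- Key induction for McCoy's theorem for modules. -/
theorem mccoy_aux (P : R[X]) (h : ∀ x : M, (∀ i, P.coeff i • x = 0) → x = 0) :
    ∀ n : ℕ, ∀ Q : PolynomialModule R M, (∀ k, n ≤ k → Q.coeff k = 0) → P • Q = 0 → Q = 0 := by
  intro n
  induction n with
  | zero =>
    intro Q hQ _
    exact eq_zero_of_coeff_eq_zero Q fun k => hQ k (Nat.zero_le k)
  | succ n IH =>
    intro Q hQ hPQ
    -- all coefficients of `P` kill the top coefficient `Q.coeff n`
    have key : ∀ i, P.coeff i • Q.coeff n = 0 := by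
      intro i
      induction i using Nat.strong_decreasing_induction with
      | base =>
        refine ⟨P.natDegree, fun i hi => ?_⟩
        rw [coeff_eq_zero_of_natDegree_lt hi, zero_smul]
      | step i IHi =>
        have h1 : (P • Q).coeff (i + n) = P.coeff i • Q.coeff n := by
          rw [PolynomialModule.smul_apply]
          apply Finset.sum_eq_single (i, n)
          · intro ⟨a, b⟩ hab hne
            have hab' : a + b = i + n := Finset.HasAntidiagonal.mem_antidiagonal.mp hab
            have hne' : a = i → b ≠ n := fun h1 h2 => hne (by rw [h1, h2])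
            show P.coeff a • Q.coeff b = 0
            rcases lt_trichotomy a i with ha | rfl | ha
            · have hb : n + 1 ≤ b := by omega
              rw [hQ b hb, smul_zero]
            · exact absurd (by omega) (hne' rfl)
            · -- `P.coeff a • Q = 0` by the outer induction hypothesis
              have hz : P.coeff a • Q = 0 := by
                apply IH
                · intro k hk
                  rw [coeff_smul_apply]
                  rcases hk.eq_or_lt with rfl | hk'
                  · exact IHi a ha
                  · rw [hQ k hk', smul_zero]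
                · rw [smul_smul_comm', hPQ, smul_zero]
              have := congrArg (fun Z : PolynomialModule R M => Z.coeff b) hz
              simpa [coeff_smul_apply] using this
          · intro hmem
            exact absurd (by simp) hmem
        rw [← h1, hPQ]
        rfl
    have hn : Q.coeff n = 0 := h _ key
    apply IH Q _ hPQ
    intro k hk
    rcases hk.eq_or_lt with rfl | hk'
    · exact hn
    · exact hQ k hk'

/-- **McCoy's theorem for modules**: if no nonzero `x : M` is killed by all coefficients of `P`,
then `P` is a nonzerodivisor on `PolynomialModule R M`. -/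
theorem eq_zero_of_smul_eq_zero (P : R[X]) (h : ∀ x : M, (∀ i, P.coeff i • x = 0) → x = 0)
    (Q : PolynomialModule R M) (hPQ : P • Q = 0) : Q = 0 := by
  refine mccoy_aux P h (Q.coeff.support.sup id + 1) Q (fun k hk => ?_) hPQ
  by_contra hne
  have hmem : k ∈ Q.coeff.support := Finsupp.mem_support_iff.mpr hne
  have : id k ≤ Q.coeff.support.sup id := Finset.le_sup (f := id) hmem
  simp only [id_eq] at this
  omega

/-- If the coefficients of `P` generate the unit ideal, no nonzero element of a module is killed by
all of them. -/
theorem eq_zero_of_coeff_smul_eq_zero {P : R[X]} (hP : P.contentIdeal = ⊤) (x : M)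
    (hx : ∀ i, P.coeff i • x = 0) : x = 0 := by
  have hle : P.contentIdeal ≤ LinearMap.ker (LinearMap.toSpanSingleton R M x) := by
    rw [Polynomial.contentIdeal_def, Ideal.span_le]
    intro c hc
    obtain ⟨i, -, rfl⟩ := Polynomial.mem_coeffs_iff.mp hc
    simp only [SetLike.mem_coe, LinearMap.mem_ker, LinearMap.toSpanSingleton_apply]
    exact hx i
  have h1 : (1 : R) ∈ LinearMap.ker (LinearMap.toSpanSingleton R M x) := by
    apply hle
    rw [hP]
    exact Submodule.mem_top
  simpa using h1

/-- A polynomial of unit content is a nonzerodivisor on `PolynomialModule R M`. -/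
theorem eq_zero_of_smul_eq_zero_of_contentIdeal_eq_top {P : R[X]} (hP : P.contentIdeal = ⊤)
    (Q : PolynomialModule R M) (hPQ : P • Q = 0) : Q = 0 :=
  eq_zero_of_smul_eq_zero P (fun x hx => eq_zero_of_coeff_smul_eq_zero hP x hx) Q hPQ

/-- A polynomial of unit content is a nonzerodivisor on `R[X] ⊗[R] M`. -/
theorem tensor_eq_zero_of_smul_eq_zero {P : R[X]} (hP : P.contentIdeal = ⊤)
    (z : R[X] ⊗[R] M) (hz : P • z = 0) : z = 0 := by
  have e := PolynomialModule.polynomialTensorProductLEquivPolynomialModule R M
  apply e.injective
  rw [map_zero]
  apply eq_zero_of_smul_eq_zero_of_contentIdeal_eq_top hP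
  rw [← map_smul, hz, map_zero]

theorem mulLeft_rTensor_eq_smul (P : R[X]) (z : R[X] ⊗[R] M) :
    (LinearMap.mulLeft R P).rTensor M z = P • z := by
  induction z using TensorProduct.induction_on with
  | zero => simp
  | tmul q m =>
    rw [LinearMap.rTensor_tmul, LinearMap.mulLeft_apply, TensorProduct.smul_tmul', smul_eq_mul]
  | add a b ha hb => rw [map_add, ha, hb, smul_add]

/-- Multiplication by a polynomial of unit content stays injective after tensoring with any
module (on the right). -/
theorem mulLeft_rTensor_injective {P : R[X]} (hP : P.contentIdeal = ⊤) (M : Type*)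
    [AddCommGroup M] [Module R M] :
    Function.Injective ((LinearMap.mulLeft R P).rTensor M) := by
  rw [injective_iff_map_eq_zero]
  intro z hz
  rw [mulLeft_rTensor_eq_smul] at hz
  exact tensor_eq_zero_of_smul_eq_zero hP z hz

/-- Multiplication by a polynomial of unit content stays injective after tensoring with any
module (on the left). -/
theorem mulLeft_lTensor_injective {P : R[X]} (hP : P.contentIdeal = ⊤) (M : Type*)
    [AddCommGroup M] [Module R M] :
    Function.Injective ((LinearMap.mulLeft R P).lTensor M) := by
  have h := mulLeft_rTensor_injective hP M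
  have hcomm : (LinearMap.mulLeft R P).lTensor M =
      (TensorProduct.comm R R[X] M).toLinearMap ∘ₗ (LinearMap.mulLeft R P).rTensor M ∘ₗ
        (TensorProduct.comm R M R[X]).toLinearMap := by
    ext m q
    simp
  rw [hcomm]
  exact (TensorProduct.comm R R[X] M).injective.comp (h.comp (TensorProduct.comm R M R[X]).injective)

/-- A polynomial of unit content is a nonzerodivisor. -/
theorem mem_nonZeroDivisors_of_contentIdeal_eq_top {P : R[X]} (hP : P.contentIdeal = ⊤) :
    P ∈ nonZeroDivisors R[X] := by
  rw [Polynomial.mem_nonZeroDivisors_iff]
  intro a ha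
  have := eq_zero_of_coeff_smul_eq_zero (M := R) hP a (fun i => by
    have := congrArg (fun Z : R[X] => Z.coeff i) ha
    simpa [mul_comm] using this)
  exact this

end Fermat.Agent.JAC.Div.UnitContent56
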