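/-
Programme JAC (S25), work package A3 (relative divisors), brick A3.1b (helper56).

For `P : R[X]` of unit content: `R[X] ⧸ (P)` is a flat `R`-module, and unit content is stable under
base change.
-/
import Fermat.Agent.JAC.Div.FlatCoker56
import Fermat.Agent.JAC.Div.UnitContent56

set_option autoImplicit false

open Polynomial TensorProduct

namespace Fermat.Agent.JAC.Div.UnitContentFlat56

open Fermat.Agent.JAC.Div.FlatCoker56 Fermat.Agent.JAC.Div.UnitContent56

variable {R : Type*} [CommRing R]

/-- Unit content is stable under base change. -/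
theorem contentIdeal_map_eq_top {S : Type*} [CommRing S] (f : R →+* S) {P : R[X]}
    (hP : P.contentIdeal = ⊤) : (P.map f).contentIdeal = ⊤ := by
  rw [Polynomial.contentIdeal_map_eq_map_contentIdeal, hP, Ideal.map_top]

/-- `R[X] ⧸ (P)` is `R`-flat when `P` has unit content. -/
theorem flat_quotient_span_singleton {P : R[X]} (hP : P.contentIdeal = ⊤) :
    Module.Flat R (R[X] ⧸ Ideal.span {P}) := by
  refine flat_of_exact_of_lTensor_quotient_injective (LinearMap.mulLeft R P)
    (Ideal.Quotient.mkₐ R (Ideal.span {P})).toLinearMap ?_ ?_ ?_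
  · intro q
    simp only [AlgHom.toLinearMap_apply, Ideal.Quotient.mkₐ_eq_mk, Set.mem_range,
      LinearMap.mulLeft_apply]
    rw [Ideal.Quotient.eq_zero_iff_mem, Ideal.mem_span_singleton']
    constructor
    · rintro ⟨a, rfl⟩
      exact ⟨a, mul_comm _ _⟩
    · rintro ⟨a, rfl⟩
      exact ⟨a, mul_comm _ _⟩
  · exact Ideal.Quotient.mk_surjective
  · intro I
    exact mulLeft_lTensor_injective hP _

end Fermat.Agent.JAC.Div.UnitContentFlat56
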